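import Fermat.Agent.TwoLogarithms.Main

/-!
# Powers, Pillai's equation and gaps between numbers composed of two given ones

If `a`, `b` are multiplicatively independent then `a ^ x - b ^ y = c` gives
`max x y ≤ log |c| + O ((log (max x y)) ^ 2)`, hence an explicit bound.
-/

set_option autoImplicit false

noncomputable section

namespace FA.TwoLogarithms

/-- Multiplicative independence of two natural numbers. -/
theorem log_independent {a b : ℕ} (ha : 2 ≤ a) (hb : 2 ≤ b)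
    (h : ∀ i j : ℕ, a ^ i = b ^ j → i = 0 ∧ j = 0) (u v : ℤ)
    (he : u * Real.log (((a : ℕ) : ℝ) / (1 : ℕ)) + v * Real.log (((b : ℕ) : ℝ) / (1 : ℕ)) = 0) :
    u = 0 ∧ v = 0 := by
  rw [Nat.cast_one, div_one, div_one] at he
  have hla : 0 < Real.log a := Real.log_pos (by exact_mod_cast ha)
  have hlb : 0 < Real.log b := Real.log_pos (by exact_mod_cast hb)
  have key : ∀ i j : ℕ, (i : ℝ) * Real.log a = j * Real.log b → i = 0 ∧ j = 0 := fun i j e => by
    refine h i j ?_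
    rw [← Real.log_pow, ← Real.log_pow] at e
    have ha0 : (0 : ℝ) < (a : ℝ) ^ i := by positivity
    have hb0 : (0 : ℝ) < (b : ℝ) ^ j := by positivity
    exact_mod_cast Real.log_injOn_pos ha0 hb0 e
  obtain ⟨i, rfl | rfl⟩ := u.eq_nat_or_neg <;> obtain ⟨j, rfl | rfl⟩ := v.eq_nat_or_neg <;>
    push_cast at he
  · have h1 : (i : ℝ) = 0 := by nlinarith [Nat.cast_nonneg (α := ℝ) i, Nat.cast_nonneg (α := ℝ) j]
    have h2 := key i j (by rw [h1] at he ⊢; linarith [he])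
    simp [h2]
  · have h2 := key i j (by linarith)
    simp [h2]
  · have h2 := key i j (by linarith)
    simp [h2]
  · have h1 : (i : ℝ) = 0 := by nlinarith [Nat.cast_nonneg (α := ℝ) i, Nat.cast_nonneg (α := ℝ) j]
    have h2 := key i j (by rw [h1] at he ⊢; linarith [he])
    simp [h2]

theorem max_mul_le_abs_sub {X Y δ : ℝ} (hX : 0 < X) (hY : 0 < Y) (hδ0 : 0 ≤ δ) (hδ1 : δ ≤ 1)
    (h : δ ≤ |Real.log X - Real.log Y|) : max X Y * (δ / 2) ≤ |X - Y| := by
  wlog hXY : Y ≤ X generalizing X Y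
  · rw [max_comm, abs_sub_comm]
    exact this hY hX (by rwa [abs_sub_comm]) (le_of_not_ge hXY)
  rw [max_eq_left hXY, abs_of_nonneg (sub_nonneg.2 hXY)]
  rw [abs_of_nonneg (sub_nonneg.2 (Real.log_le_log hY hXY))] at h
  have h1 : Y ≤ X * Real.exp (-δ) := by
    rw [← Real.exp_log hY, ← Real.exp_log hX, ← Real.exp_add]
    exact Real.exp_le_exp.2 (by linarith)
  have h2 : Real.exp (-δ) * (1 + δ) ≤ 1 := by
    have := mul_le_mul_of_nonneg_left (Real.add_one_le_exp δ) (Real.exp_pos (-δ)).le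
    rw [← Real.exp_add, neg_add_cancel, Real.exp_zero, add_comm δ] at this
    exact this
  have h3 : δ / 2 ≤ 1 - Real.exp (-δ) := by nlinarith [Real.exp_pos (-δ)]
  nlinarith [mul_le_mul_of_nonneg_left h3 hX.le]

/-- Numbers composed of `a` and `b`. -/
theorem monomial_gap {a b : ℕ} (ha : 2 ≤ a) (hb : 2 ≤ b)
    (h : ∀ i j : ℕ, a ^ i = b ^ j → i = 0 ∧ j = 0) {i j i' j' : ℕ} (hne : (i, j) ≠ (i', j')) :
    ((max (a ^ i * b ^ j) (a ^ i' * b ^ j') : ℕ) : ℝ) *
      (Real.exp (-(const (max a b) *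
        ((Nat.log 2 (max (max i i') (max j j')) + 1 : ℕ) : ℝ) ^ 2)) / 2) ≤
      |((a ^ i * b ^ j : ℕ) : ℝ) - (a ^ i' * b ^ j' : ℕ)| := by
  have ha0 : (0 : ℝ) < a := Nat.cast_pos.2 (by omega)
  have hb0 : (0 : ℝ) < b := Nat.cast_pos.2 (by omega)
  push_cast
  refine max_mul_le_abs_sub (by positivity) (by positivity) (Real.exp_pos _).le
    (Real.exp_le_one_iff.2 (neg_nonpos.2 (by positivity))) ?_
  have hb' : ((i : ℤ) - i') ≠ 0 ∨ ((j' : ℤ) - j) ≠ 0 := by
    by_contra hc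
    simp only [not_or, not_not] at hc
    exact hne (Prod.ext (by simp only; omega) (by simp only; omega))
  have h1 := two_logarithms_bound (p₁ := a) (q₁ := 1) (p₂ := b) (q₂ := 1) (by omega) one_pos
    (by omega) one_pos (log_independent ha hb h) hb'
  rw [show max (max a 1) (max b 1) = max a b by omega] at h1
  refine le_trans ?_ (h1.trans_eq ?_)
  · refine Real.exp_le_exp.2 (neg_le_neg (mul_le_mul_of_nonneg_left ?_ (Nat.cast_nonneg _)))
    have hle : max ((i : ℤ) - i').natAbs ((j' : ℤ) - j).natAbs ≤ max (max i i') (max j j') := by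
      omega
    exact_mod_cast Nat.pow_le_pow_left (Nat.succ_le_succ (Nat.log_mono_right (b := 2) hle)) 2
  · rw [Real.log_mul (by positivity) (by positivity), Real.log_mul (by positivity) (by positivity),
      Real.log_pow, Real.log_pow, Real.log_pow, Real.log_pow]
    congr 1
    push_cast
    simp only [div_one]
    ring

theorem pow_four_le (n : ℕ) : n ^ 4 ≤ 32 * 2 ^ n := by
  induction n with
  | zero => norm_num
  | succ m ih =>
    rcases le_or_gt m 6 with hm | hm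
    · interval_cases m <;> norm_num
    have h3 : 7 * m ^ 3 ≤ m ^ 4 := by
      rw [pow_succ m 3, mul_comm (m ^ 3)]; exact Nat.mul_le_mul_right _ hm
    have h2 : 7 * m ^ 2 ≤ m ^ 3 := by
      rw [pow_succ m 2, mul_comm (m ^ 2)]; exact Nat.mul_le_mul_right _ hm
    have h1 : 7 * m ≤ m ^ 2 := by
      rw [pow_two]; exact Nat.mul_le_mul_right _ hm
    calc (m + 1) ^ 4 = m ^ 4 + 4 * m ^ 3 + 6 * m ^ 2 + 4 * m + 1 := by ring
      _ ≤ 2 * m ^ 4 := by omega
      _ ≤ 2 * (32 * 2 ^ m) := Nat.mul_le_mul_left 2 ih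
      _ = 32 * 2 ^ (m + 1) := by ring

/-- A number below a multiple of the square of its logarithm is bounded. -/
theorem le_of_le_add_mul_log_sq {m u D : ℕ} (hm : m ≠ 0)
    (h : m ≤ u + D * (Nat.log 2 m + 1) ^ 2) : m ≤ 2 * u + 64 * D ^ 2 := by
  set n := Nat.log 2 m + 1
  have hn4 : (n ^ 2) ^ 2 ≤ 64 * m := by
    calc (n ^ 2) ^ 2 = n ^ 4 := by ring
      _ ≤ 32 * 2 ^ n := pow_four_le n
      _ = 64 * 2 ^ Nat.log 2 m := by simp only [n]; ring
      _ ≤ 64 * m := Nat.mul_le_mul_left _ (Nat.pow_log_le_self 2 hm)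
  rcases le_or_gt m u with hmu | hmu
  · omega
  by_contra hgt
  push Not at hgt
  obtain ⟨w, rfl⟩ : ∃ w, m = u + w := ⟨m - u, by omega⟩
  have h1 : w ^ 2 ≤ 64 * D ^ 2 * (u + w) := by
    calc w ^ 2 ≤ (D * n ^ 2) ^ 2 := Nat.pow_le_pow_left (by omega) 2
      _ = D ^ 2 * (n ^ 2) ^ 2 := by ring
      _ ≤ D ^ 2 * (64 * (u + w)) := Nat.mul_le_mul_left _ hn4
      _ = 64 * D ^ 2 * (u + w) := by ring
  nlinarith [Nat.mul_le_mul_right w (show u + 64 * D ^ 2 + 1 ≤ w by omega),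
    Nat.mul_le_mul_left (64 * D ^ 2) (show u ≤ w by omega)]

/-- The bound for the exponents in Pillai's equation. -/
def pillaiBound (a b c : ℕ) : ℕ := 2 * (Nat.log 2 c + 3) + 256 * const (max a b) ^ 2

theorem pillai_exponent_bound {a b : ℕ} (ha : 2 ≤ a) (hb : 2 ≤ b)
    (h : ∀ i j : ℕ, a ^ i = b ^ j → i = 0 ∧ j = 0) {x y : ℕ} {c : ℤ}
    (he : (a : ℤ) ^ x - (b : ℤ) ^ y = c) :
    x ≤ pillaiBound a b c.natAbs ∧ y ≤ pillaiBound a b c.natAbs := by
  set m := max x y with hm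
  suffices m ≤ pillaiBound a b c.natAbs by omega
  rcases Nat.eq_zero_or_pos m with h0 | h0
  · omega
  set C := const (max a b)
  set n := Nat.log 2 m + 1
  set u := Nat.log 2 c.natAbs + 3
  have hgap := monomial_gap ha hb h (i := x) (j := 0) (i' := 0) (j' := y)
    (fun e => by simp only [Prod.mk.injEq] at e; omega)
  simp only [pow_zero, mul_one, one_mul, max_eq_left (Nat.zero_le x),
    max_eq_right (Nat.zero_le y)] at hgap
  have hc : |((a ^ x : ℕ) : ℝ) - (b ^ y : ℕ)| = (c.natAbs : ℕ) := by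
    rw [Nat.cast_natAbs, Int.cast_abs, ← he]
    push_cast
    rfl
  rw [hc] at hgap
  have h2m : 2 ^ m ≤ max (a ^ x) (b ^ y) := by
    rcases max_cases x y with ⟨e, _⟩ | ⟨e, _⟩ <;> rw [hm, e]
    exacts [(Nat.pow_le_pow_left ha x).trans (le_max_left _ _),
      (Nat.pow_le_pow_left hb y).trans (le_max_right _ _)]
  have hexp : (1 : ℝ) / 2 ^ (2 * (C * n ^ 2)) ≤ Real.exp (-((C : ℝ) * (n : ℝ) ^ 2)) := by
    rw [Real.exp_neg, ← one_div]
    refine one_div_le_one_div_of_le (Real.exp_pos _) ?_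
    rw [show (C : ℝ) * (n : ℝ) ^ 2 = ((C * n ^ 2 : ℕ) : ℝ) * 1 by push_cast; ring,
      Real.exp_nat_mul, pow_mul (2 : ℝ) 2]
    exact pow_le_pow_left₀ (Real.exp_pos _).le
      (show Real.exp 1 ≤ (2 : ℝ) ^ 2 by linarith [Real.exp_one_lt_d9]) _
  have hreal : ((2 ^ m : ℕ) : ℝ) ≤ ((2 * c.natAbs * 2 ^ (2 * (C * n ^ 2)) : ℕ) : ℝ) := by
    push_cast
    have h1 := le_trans (mul_le_mul (Nat.cast_le (α := ℝ) |>.2 h2m)
      (div_le_div_of_nonneg_right hexp two_pos.le) (by positivity) (Nat.cast_nonneg _)) hgap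
    push_cast at h1
    rw [div_div, mul_one_div, div_le_iff₀ (by positivity)] at h1
    linarith
  have hnat : 2 ^ m ≤ 2 * c.natAbs * 2 ^ (2 * (C * n ^ 2)) := by exact_mod_cast hreal
  have hlin : m ≤ u + 2 * (C * n ^ 2) := by
    refine (Nat.pow_le_pow_iff_right one_lt_two).1 (hnat.trans ?_)
    rw [pow_add]
    refine Nat.mul_le_mul_right _ ?_
    calc 2 * c.natAbs ≤ 2 * 2 ^ (Nat.log 2 c.natAbs + 1) :=
          Nat.mul_le_mul_left _ (Nat.lt_pow_succ_log_self one_lt_two _).le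
      _ ≤ 2 ^ u := by rw [← pow_succ']; exact Nat.pow_le_pow_right two_pos (by omega)
  show m ≤ 2 * u + 256 * C ^ 2
  refine (le_of_le_add_mul_log_sq h0.ne' (D := 2 * C)
    (hlin.trans_eq (by rw [mul_assoc]))).trans_eq ?_
  ring

end FA.TwoLogarithms

end
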