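import Mathlib.Analysis.Complex.AbsMax
import Mathlib.Analysis.Calculus.DSlope
import Mathlib.Analysis.Complex.RemovableSingularity
import Mathlib.LinearAlgebra.Matrix.Determinant.Basic

/-!
# Interpolation determinants

If `φ_1, …, φ_m` are entire and the other rows of a determinant are constant then
`x ↦ det (φ_j (x z_i), E_j i)` has a zero of order `m (m - 1) / 2` at `0`, so its value at `1` is
small by the maximum principle. A determinant with a small perturbation is expanded in the rows of
the perturbation.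
-/

set_option autoImplicit false

noncomputable section

namespace FA.TwoLogarithms

open Finset

/-- The Taylor polynomial with an entire remainder. -/
theorem exists_taylor {f : ℂ → ℂ} (hf : Differentiable ℂ f) (D : ℕ) :
    ∃ (c : ℕ → ℂ) (q : ℂ → ℂ), Differentiable ℂ q ∧
      ∀ y, f y = ∑ a ∈ range D, c a * y ^ a + y ^ D * q y := by
  induction D with
  | zero => exact ⟨0, f, hf, fun y => by simp⟩
  | succ D ih =>
    obtain ⟨c, q, hq, h⟩ := ih
    have hq' : Differentiable ℂ (dslope q 0) := differentiableOn_univ.1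
      ((Complex.differentiableOn_dslope Filter.univ_mem).2 hq.differentiableOn)
    refine ⟨fun a => if a = D then q 0 else c a, dslope q 0, hq', fun y => ?_⟩
    have h1 := sub_smul_dslope q 0 y
    rw [sub_zero, smul_eq_mul] at h1
    rw [h, sum_range_succ]
    beta_reduce
    rw [if_pos rfl]
    simp only [pow_succ]
    rw [sum_congr rfl fun a ha => show (if a = D then q 0 else c a) * y ^ a = c a * y ^ a by
      rw [if_neg (Finset.mem_range.1 ha).ne]]
    linear_combination -(y ^ D) * h1

theorem card_choose_two_le_sum {ι : Type*} (J : Finset ι) (r : ι → ℕ) (hr : Set.InjOn r J) :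
    J.card.choose 2 ≤ ∑ j ∈ J, r j := by
  classical
  induction hn : J.card generalizing J with
  | zero => simp
  | succ n ih =>
    obtain ⟨a, ha, hmax⟩ := J.exists_max_image r (card_pos.1 (by omega))
    have h1 := ih (J.erase a) (hr.mono (coe_subset.2 (erase_subset _ _)))
      (by rw [card_erase_of_mem ha]; omega)
    have h2 : n ≤ r a := by
      have h3 : (J.erase a).image r ⊆ range (r a) := fun x hx => by
        obtain ⟨j, hj, rfl⟩ := mem_image.1 hx
        rw [mem_erase] at hj
        exact mem_range.2 (lt_of_le_of_ne (hmax j hj.2) fun e => hj.1 (hr hj.2 ha e))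
      have h4 := card_le_card h3
      rw [card_image_of_injOn (hr.mono (coe_subset.2 (erase_subset _ _))), card_range,
        card_erase_of_mem ha] at h4
      omega
    have h5 : (n + 1).choose 2 = n.choose 1 + n.choose 2 := Nat.choose_succ_succ' n 1
    rw [← add_sum_erase J r ha, h5, Nat.choose_one_right]
    omega

theorem norm_det_le {N : ℕ} (M : Matrix (Fin N) (Fin N) ℂ) (B : Fin N → ℝ)
    (h : ∀ j i, ‖M j i‖ ≤ B j) : ‖M.det‖ ≤ N.factorial * ∏ j, B j := by
  rw [Matrix.det_apply']
  refine (norm_sum_le _ _).trans ?_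
  calc ∑ σ : Equiv.Perm (Fin N), ‖((Equiv.Perm.sign σ : ℤ) : ℂ) * ∏ i, M (σ i) i‖
      ≤ ∑ _σ : Equiv.Perm (Fin N), ∏ j, B j := sum_le_sum fun σ _ => by
        rcases Int.units_eq_one_or (Equiv.Perm.sign σ) with e | e <;>
          simp only [e, Units.val_one, Units.val_neg, Int.cast_one, Int.cast_neg, neg_mul, one_mul,
            norm_neg, norm_prod] <;>
          exact (prod_le_prod (fun i _ => norm_nonneg _) fun i _ => h (σ i) i).trans_eq
            (Equiv.prod_comp σ B)
    _ = _ := by simp [Fintype.card_perm]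

/-- **Schwarz's lemma for an interpolation determinant.** -/
theorem norm_det_interpolation {N : ℕ} (J : Finset (Fin N)) (φ : Fin N → ℂ → ℂ)
    (hφ : ∀ j, Differentiable ℂ (φ j)) (z : Fin N → ℂ) (E : Fin N → Fin N → ℂ) {ρ : ℝ}
    (hρ : 1 ≤ ρ) (B : Fin N → ℝ) (hB : ∀ j ∈ J, ∀ x : ℂ, ‖x‖ ≤ ρ → ∀ i, ‖φ j (x * z i)‖ ≤ B j)
    (hE : ∀ j ∉ J, ∀ i, ‖E j i‖ ≤ B j) :
    ‖(Matrix.of fun j i => if j ∈ J then φ j (z i) else E j i).det‖ ≤
      N.factorial * (∏ j, B j) / ρ ^ J.card.choose 2 := by
  classical
  set D := J.card.choose 2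
  choose c q hq hc using fun j => exists_taylor (hφ j) D
  let A : Fin N → Finset (Fin (D + 1)) := fun j => if j ∈ J then univ else {0}
  let s : Fin N → Fin (D + 1) → ℂ := fun j a =>
    if j ∈ J then (if a.val < D then c j a.val else 1) else 1
  let ex : Fin N → Fin (D + 1) → ℕ := fun j a => if j ∈ J then a.val else 0
  let vec : ℂ → Fin N → Fin (D + 1) → Fin N → ℂ := fun x j a i =>
    if j ∈ J then (if a.val < D then z i ^ a.val else z i ^ D * q j (x * z i)) else E j i
  let G : ℂ → ℂ := fun x => (Matrix.of fun j i => if j ∈ J then φ j (x * z i) else E j i).det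
  let Ok : (Fin N → Fin (D + 1)) → Prop := fun r =>
    Set.InjOn (fun j => (r j).val) J ∨ ∃ j ∈ J, (r j).val = D
  let H : ℂ → ℂ := fun x => ∑ r ∈ Fintype.piFinset A, if Ok r then
    (∏ j, s j (r j)) * x ^ ((∑ j, ex j (r j)) - D) * (Matrix.of fun j => vec x j (r j)).det else 0
  have hGH : ∀ x, G x = x ^ D * H x := fun x => by
    have hrow : ∀ j, (fun i => if j ∈ J then φ j (x * z i) else E j i) =
        ∑ a ∈ A j, (s j a * x ^ ex j a) • vec x j a := fun j => by
      funext i
      by_cases hj : j ∈ J
      · simp only [A, s, ex, vec, if_pos hj, Finset.sum_apply, Pi.smul_apply, smul_eq_mul]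
        rw [Fin.sum_univ_castSucc, hc, ← Fin.sum_univ_eq_sum_range (fun a => c j a * (x * z i) ^ a)]
        simp only [Fin.val_castSucc, Fin.is_lt, if_true, Fin.val_last, lt_irrefl, if_false,
          mul_pow, one_mul]
        exact congrArg₂ (· + ·) (sum_congr rfl fun a _ => by ring) (by ring)
      · simp [A, s, ex, vec, hj]
    have hdet : G x = ∑ r ∈ Fintype.piFinset A,
        Matrix.detRowAlternating fun j => (s j (r j) * x ^ ex j (r j)) • vec x j (r j) := by
      show Matrix.detRowAlternating (fun j i => if j ∈ J then φ j (x * z i) else E j i) = _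
      rw [show (fun j i => if j ∈ J then φ j (x * z i) else E j i) = fun j =>
        ∑ a ∈ A j, (s j a * x ^ ex j a) • vec x j a from funext hrow]
      exact
        (Matrix.detRowAlternating : (Fin N → ℂ) [⋀^Fin N]→ₗ[ℂ] ℂ).toMultilinearMap.map_sum_finset
        (fun j a => (s j a * x ^ ex j a) • vec x j a) A
    rw [hdet, mul_sum]
    refine sum_congr rfl fun r _ => ?_
    rw [AlternatingMap.map_smul_univ, smul_eq_mul, prod_mul_distrib, prod_pow_eq_pow_sum]
    change _ * (Matrix.of fun j => vec x j (r j)).det = _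
    by_cases hok : Ok r
    · rw [if_pos hok]
      have hle : D ≤ ∑ j, ex j (r j) := by
        have e : ∑ j ∈ J, (r j).val ≤ ∑ j, ex j (r j) :=
          (sum_congr rfl fun j hj => by simp [ex, hj]).trans_le
            (sum_le_univ_sum_of_nonneg fun _ => Nat.zero_le _)
        refine le_trans ?_ e
        rcases hok with hinj | ⟨j, hj, hjD⟩
        · exact card_choose_two_le_sum J (fun j => (r j).val) hinj
        · exact hjD.symm.le.trans
            (single_le_sum (f := fun j => (r j).val) (fun _ _ => Nat.zero_le _) hj)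
      conv_lhs => rw [← Nat.add_sub_cancel' hle, pow_add]
      ring
    · rw [if_neg hok, mul_zero]
      simp only [Ok, not_or, Set.InjOn, not_forall, not_exists, not_and] at hok
      obtain ⟨⟨j, hj, j', hj', he, hne⟩, hD⟩ := hok
      have e : vec x j (r j) = vec x j' (r j') := funext fun i => by
        have h1 := Nat.lt_of_le_of_ne (Nat.lt_succ_iff.1 (r j).isLt) (hD j hj)
        have h2 := Nat.lt_of_le_of_ne (Nat.lt_succ_iff.1 (r j').isLt) (hD j' hj')
        rw [mem_coe] at hj hj'
        simp [vec, hj, hj', h2, he]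
      rw [Matrix.det_zero_of_row_eq hne e, mul_zero]
  have hH : Differentiable ℂ H := by
    refine Differentiable.fun_sum fun r _ => ?_
    by_cases hok : Ok r
    · simp only [if_pos hok, Matrix.det_apply']
      refine ((differentiable_const _).mul (differentiable_pow _)).mul
        (Differentiable.fun_sum fun σ _ => (differentiable_const _).mul
          (Differentiable.fun_finsetProd fun i _ => ?_))
      simp only [Matrix.of_apply, vec]
      split_ifs
      · exact differentiable_const _
      · exact (differentiable_const _).mul ((hq _).comp (differentiable_id.mul_const _))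
      · exact differentiable_const _
    · simp only [if_neg hok]
      exact differentiable_const _
  have hρ0 : 0 < ρ := one_pos.trans_le hρ
  set Bd := N.factorial * (∏ j, B j) / ρ ^ D
  have hsph : ∀ x ∈ frontier (Metric.ball (0 : ℂ) ρ), ‖H x‖ ≤ Bd := fun x hx => by
    rw [frontier_ball _ hρ0.ne', mem_sphere_zero_iff_norm] at hx
    have h1 : ‖G x‖ ≤ N.factorial * ∏ j, B j := norm_det_le _ _ fun j i => by
      simp only [Matrix.of_apply]
      split_ifs with hj
      exacts [hB j hj x hx.le i, hE j hj i]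
    rw [hGH, norm_mul, norm_pow, hx] at h1
    exact (le_div_iff₀' (pow_pos hρ0 D)).2 h1
  have h2 := Complex.norm_le_of_forall_mem_frontier_norm_le Metric.isBounded_ball hH.diffContOnCl
    hsph (z := (1 : ℂ)) (by
      rw [closure_ball _ hρ0.ne', mem_closedBall_zero_iff, norm_one]; exact hρ)
  have h3 := hGH 1
  rw [one_pow, one_mul] at h3
  simp only [G, one_mul] at h3
  rwa [h3]

theorem mul_pred_add_le (a e : ℕ) :
    (a + e) * (a + e - 1) ≤ a * (a - 1) + 2 * ((a + e) * e) := by
  rcases Nat.eq_zero_or_pos a with rfl | h0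
  · simp only [zero_add, Nat.zero_sub, mul_zero]
    exact le_trans (Nat.mul_le_mul_left _ (Nat.sub_le e 1))
      (Nat.le_mul_of_pos_left _ two_pos)
  obtain ⟨m, rfl⟩ : ∃ m, a = m + 1 := ⟨a - 1, by omega⟩
  rw [show m + 1 + e - 1 = m + e by omega, Nat.add_sub_cancel]
  nlinarith

/-- **A perturbed interpolation determinant.** -/
theorem norm_det_perturbed {N : ℕ} (φ : Fin N → ℂ → ℂ) (hφ : ∀ j, Differentiable ℂ (φ j))
    (z : Fin N → ℂ) (E : Fin N → Fin N → ℂ) {ρ B : ℝ} (hρ : 1 ≤ ρ) (hB0 : 0 ≤ B)
    (hB : ∀ j, ∀ x : ℂ, ‖x‖ ≤ ρ → ∀ i, ‖φ j (x * z i)‖ ≤ B)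
    (hE : ∀ j i, ‖E j i‖ ≤ B / ρ ^ N) :
    ‖(Matrix.of fun j i => φ j (z i) + E j i).det‖ ≤
      2 ^ N * (N.factorial * B ^ N / ρ ^ N.choose 2) := by
  classical
  have hρ0 : 0 < ρ := one_pos.trans_le hρ
  have hsplit : (Matrix.of fun j i => φ j (z i) + E j i).det = ∑ J : Finset (Fin N),
      (Matrix.of fun j i => if j ∈ J then φ j (z i) else E j i).det := by
    show Matrix.detRowAlternating ((fun j i => φ j (z i)) + fun j i => E j i) = _
    refine ((Matrix.detRowAlternating : (Fin N → ℂ) [⋀^Fin N]→ₗ[ℂ] ℂ).toMultilinearMap.map_add_univ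
      (fun j i => φ j (z i)) (fun j i => E j i)).trans (sum_congr rfl fun J _ => ?_)
    show Matrix.detRowAlternating _ = Matrix.detRowAlternating _
    congr 1
    funext j i
    by_cases hj : j ∈ J <;> simp [hj]
  rw [hsplit]
  refine (norm_sum_le _ _).trans ((sum_le_sum fun J _ => ?_).trans_eq
    (b := ∑ _J : Finset (Fin N), N.factorial * B ^ N / ρ ^ N.choose 2) (by simp))
  refine (norm_det_interpolation J φ hφ z E hρ (fun j => if j ∈ J then B else B / ρ ^ N)
    (fun j hj x hx i => by rw [if_pos hj]; exact hB j x hx i)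
    (fun j hj i => by rw [if_neg hj]; exact hE j i)).trans ?_
  rw [prod_ite, prod_const, prod_const, filter_mem_eq_inter, univ_inter,
    filter_notMem_eq_sdiff, ← compl_eq_univ_sdiff, card_compl, Fintype.card_fin, div_pow,
    ← pow_mul, mul_div_assoc', ← pow_add, mul_div_assoc', div_div,
    Nat.add_sub_cancel' ((card_le_univ J).trans_eq (Fintype.card_fin N))]
  refine div_le_div_of_nonneg_left (by positivity) (by positivity) ?_
  rw [← pow_add]
  refine pow_le_pow_right₀ hρ ?_
  have hle : J.card ≤ N := (card_le_univ J).trans_eq (Fintype.card_fin N)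
  rw [Nat.choose_two_right, Nat.choose_two_right]
  have h1 := mul_pred_add_le J.card (N - J.card)
  rw [Nat.add_sub_cancel' hle] at h1
  omega

end FA.TwoLogarithms

end
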