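import Mathlib.Algebra.Polynomial.Roots
import Mathlib.LinearAlgebra.Matrix.NonsingularInverse
import Mathlib.LinearAlgebra.Matrix.ToLinearEquiv
import Mathlib.LinearAlgebra.Dimension.Finite
import Mathlib.LinearAlgebra.StdBasis
import Mathlib.LinearAlgebra.Matrix.Basis

/-!
# Laurent's zero estimate

A polynomial `∑ c (k, l) X ^ k Y ^ l`, `k < K`, `l < L`, vanishing at all
`(z₁ + z₂, w₁ w₂)` is zero if the first set has at least `L` distinct `w₁` and the second more
than `(K - 1) L` distinct `z₂`.
-/

set_option autoImplicit false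

noncomputable section

namespace FA.TwoLogarithms

open Finset Polynomial

variable {F : Type*} [Field F]

/-- A matrix with independent columns has a nonzero square minor. -/
theorem exists_minor {ι : Type*} [Fintype ι] {N : ℕ} (M : ι → Fin N → F)
    (h : ∀ c : Fin N → F, (∀ i, ∑ j, c j * M i j = 0) → c = 0) :
    ∃ t : Fin N → ι, (Matrix.of fun a j => M (t a) j).det ≠ 0 := by
  classical
  obtain ⟨b, hb, hspan, hli⟩ := exists_linearIndependent F (Set.range M)
  have htop : Submodule.span F (Set.range M) = ⊤ := by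
    by_contra hne
    obtain ⟨g, hg0, hg⟩ := Submodule.exists_le_ker_of_lt_top _ (lt_top_iff_ne_top.2 hne)
    refine hg0 (LinearMap.ext fun v => ?_)
    have hval : ∀ w : Fin N → F, g w = ∑ j, g (Pi.single j 1) * w j := fun w => by
      rw [LinearMap.pi_apply_eq_sum_univ g w]
      refine sum_congr rfl fun j _ => ?_
      rw [smul_eq_mul, mul_comm]
      congr 2
      funext k
      simp [Pi.single_apply, eq_comm]
    have h0 := h (fun j => g (Pi.single j 1)) fun i => by
      rw [← hval]; exact hg (Submodule.subset_span ⟨i, rfl⟩)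
    rw [hval]
    exact sum_eq_zero fun j _ => by rw [congrFun h0 j, Pi.zero_apply, zero_mul]
  have : Finite b := (Set.finite_range M).subset hb
  have : Fintype b := Fintype.ofFinite b
  let B := Module.Basis.mk hli (by rw [Subtype.range_coe_subtype, Set.ofPred_mem_eq, hspan, htop])
  have hcard : Fintype.card b = N := by
    rw [← Module.finrank_eq_card_basis B, Module.finrank_fin_fun]
  let e := (Fintype.equivFinOfCardEq hcard).symm
  choose t ht using fun a => hb (e a).2
  refine ⟨t, fun hdet => ?_⟩
  have h2 : LinearIndependent F fun a => M (t a) := by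
    simp only [ht]
    exact hli.comp e e.injective
  exact ((Matrix.linearIndependent_rows_iff_isUnit (A := Matrix.of fun a j => M (t a) j)).1 h2
    |> (Matrix.isUnit_iff_isUnit_det _).1).ne_zero hdet

/-- **The zero estimate.** -/
theorem eq_zero_of_vanishing {K L : ℕ} {ι₁ ι₂ : Type*} [Fintype ι₁] [Fintype ι₂] {z₁ w₁ : ι₁ → F}
    {z₂ w₂ : ι₂ → F} (hw₁ : Function.Injective w₁) (hz₂ : Function.Injective z₂)
    (hw₂ : ∀ p, w₂ p ≠ 0) (hcard₁ : L ≤ Fintype.card ι₁)
    (hcard₂ : (K - 1) * L < Fintype.card ι₂) (c : Fin K → Fin L → F)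
    (h : ∀ p q, ∑ k : Fin K, ∑ l : Fin L,
      c k l * (z₁ p + z₂ q) ^ k.val * (w₁ p * w₂ q) ^ l.val = 0) :
    c = 0 := by
  classical
  set Q : Fin L → F[X] := fun l => ∑ k : Fin K, C (c k l) * X ^ k.val with hQ
  have hQdeg : ∀ l, (Q l).natDegree ≤ K - 1 := fun l =>
    natDegree_sum_le_of_forall_le _ _ fun k _ =>
      (natDegree_C_mul_X_pow_le _ _).trans (by have := k.isLt; omega)
  have hcoef : ∀ (k : Fin K) l, (Q l).coeff k.val = c k l := fun k l => by
    simp [hQ, finsetSum_coeff, coeff_C_mul, coeff_X_pow, Fin.val_inj]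
  set T := univ.filter fun l => Q l ≠ 0
  by_cases hT : T = ∅
  · funext k l
    rw [← hcoef k l]
    have : Q l = 0 := by_contra fun h0 => by
      have hl : l ∈ T := mem_filter.2 ⟨mem_univ l, h0⟩
      simp [hT] at hl
    simp [this]
  exfalso
  let e := (Fintype.equivFinOfCardEq (Fintype.card_coe T)).symm
  set m := T.card
  have hm : 0 < m := card_pos.2 (nonempty_iff_ne_empty.2 hT)
  have hmL : m ≤ L := (card_le_univ T).trans_eq (Fintype.card_fin L)
  have hQe : ∀ j, Q (e j).1 ≠ 0 := fun j => (mem_filter.1 (e j).2).2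
  obtain ⟨t, ht⟩ := exists_minor (F := F) (fun p (j : Fin m) => w₁ p ^ (e j).1.val) fun v hv => by
    set P : F[X] := ∑ j, C (v j) * X ^ (e j).1.val
    have hP : P = 0 := by
      refine eq_zero_of_natDegree_lt_card_of_eval_eq_zero P hw₁ (fun p => ?_) ?_
      · simpa [P, eval_finsetSum] using hv p
      · refine lt_of_le_of_lt (natDegree_sum_le_of_forall_le _ _ (n := L - 1) fun j _ =>
          (natDegree_C_mul_X_pow_le _ _).trans (by have := (e j).1.isLt; omega)) ?_
        have := (e ⟨0, hm⟩).1.isLt
        omega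
    funext j
    have := congrArg (coeff · (e j).1.val) hP
    simpa [P, finsetSum_coeff, coeff_C_mul, coeff_X_pow, Fin.val_inj, ← Subtype.ext_iff] using this
  let Mx : Matrix (Fin m) (Fin m) F[X] :=
    Matrix.of fun a j => (Q (e j).1).comp (X + C (z₁ (t a))) * C (w₁ (t a) ^ (e j).1.val)
  have hdeg : ∀ a j, (Mx a j).natDegree ≤ (Q (e j).1).natDegree := fun a j => by
    simp only [Mx, Matrix.of_apply]
    refine (natDegree_mul_C_le _ _).trans (le_of_eq ?_)
    rw [natDegree_comp, natDegree_X_add_C, mul_one]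
  have hne : Mx.det ≠ 0 := fun h0 => by
    let Pd : Matrix (Fin m) (Fin m) F[X] :=
      Matrix.of fun a j => X ^ (K - 1 - (Q (e j).1).natDegree) * Mx a j
    have h1 : Pd.det = 0 := by
      rw [show Pd = Matrix.of fun a j => (fun j => X ^ (K - 1 - (Q (e j).1).natDegree)) j * Mx a j
        from rfl, Matrix.det_mul_row, h0, mul_zero]
    have h2 : Pd.det.coeff (m * (K - 1)) =
        (Matrix.of fun a j => (Q (e j).1).leadingCoeff * w₁ (t a) ^ (e j).1.val).det := by
      rw [Matrix.det_apply', Matrix.det_apply', finsetSum_coeff]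
      refine sum_congr rfl fun σ _ => ?_
      rw [coeff_intCast_mul]
      have hu : Fintype.card (Fin m) = (univ : Finset (Fin m)).card := rfl
      rw [show m * (K - 1) = (univ : Finset (Fin m)).card * (K - 1) by
        rw [card_univ, Fintype.card_fin], coeff_prod_of_natDegree_le]
      · refine congrArg _ (prod_congr rfl fun i _ => ?_)
        simp only [Pd, Mx, Matrix.of_apply]
        have hl := hQdeg (e i).1
        rw [coeff_X_pow_mul', if_pos (Nat.sub_le _ _), Nat.sub_sub_self hl, coeff_mul_C]
        refine congrArg (· * _) ?_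
        have hc : ((Q (e i).1).comp (X + C (z₁ (t (σ i))))).natDegree = (Q (e i).1).natDegree := by
          rw [natDegree_comp, natDegree_X_add_C, mul_one]
        conv_lhs => rw [← hc]
        rw [coeff_natDegree, leadingCoeff_comp (by rw [natDegree_X_add_C]; exact one_ne_zero),
          leadingCoeff_X_add_C, one_pow, mul_one]
      · intro i _
        refine natDegree_mul_le.trans ((add_le_add (natDegree_X_pow_le _) (hdeg _ _)).trans ?_)
        have := hQdeg (e i).1
        omega
    rw [h1, coeff_zero, show (Matrix.of fun a j => (Q (e j).1).leadingCoeff *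
      w₁ (t a) ^ (e j).1.val) = Matrix.of fun a j => (fun j => (Q (e j).1).leadingCoeff) j *
        (Matrix.of fun a (j : Fin m) => w₁ (t a) ^ (e j).1.val) a j from rfl,
      Matrix.det_mul_row] at h2
    exact mul_ne_zero (prod_ne_zero_iff.2 fun j _ => leadingCoeff_ne_zero.2 (hQe j)) ht h2.symm
  have hroot : ∀ q, Mx.det.eval (z₂ q) = 0 := fun q => by
    rw [← coe_evalRingHom, RingHom.map_det]
    refine Matrix.exists_mulVec_eq_zero_iff.1 ⟨fun j => w₂ q ^ (e j).1.val,
      fun h0 => pow_ne_zero _ (hw₂ q) (congrFun h0 ⟨0, hm⟩), ?_⟩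
    funext a
    refine Eq.trans ?_ (h (t a) q)
    rw [sum_comm]
    simp only [Matrix.mulVec, dotProduct, RingHom.mapMatrix_apply, Matrix.map_apply, Mx,
      Matrix.of_apply, coe_evalRingHom, eval_mul, eval_comp, eval_add, eval_X, eval_C]
    rw [e.sum_comp fun l : T => (Q l.1).eval (z₂ q + z₁ (t a)) * w₁ (t a) ^ l.1.val *
      w₂ q ^ l.1.val, sum_coe_sort T fun l => (Q l).eval (z₂ q + z₁ (t a)) *
      w₁ (t a) ^ l.val * w₂ q ^ l.val]
    refine (sum_subset (subset_univ T) fun l _ hl => ?_).trans (sum_congr rfl fun l _ => ?_)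
    · have : Q l = 0 := by_contra fun h0 => hl (mem_filter.2 ⟨mem_univ l, h0⟩)
      simp [this]
    · simp only [hQ, eval_finsetSum, eval_mul, eval_C, eval_pow, eval_X, sum_mul]
      refine sum_congr rfl fun k _ => ?_
      rw [add_comm (z₂ q), mul_pow]
      ring
  have hle : Fintype.card ι₂ ≤ Mx.det.natDegree := by
    rw [← card_univ, ← card_image_of_injective univ hz₂]
    refine card_le_degree_of_subset_roots fun x hx => ?_
    rw [Finset.mem_val] at hx
    obtain ⟨q, -, rfl⟩ := mem_image.1 hx
    exact (mem_roots hne).2 (hroot q)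
  have hd : Mx.det.natDegree ≤ m * (K - 1) := by
    rw [Matrix.det_apply']
    refine natDegree_sum_le_of_forall_le _ _ fun σ _ => ?_
    refine natDegree_mul_le.trans ?_
    rw [natDegree_intCast, zero_add]
    refine (natDegree_prod_le _ _).trans ?_
    refine (sum_le_card_nsmul _ _ _ fun i _ => (hdeg _ _).trans (hQdeg _)).trans_eq ?_
    simp
  have : m * (K - 1) ≤ (K - 1) * L := by rw [mul_comm]; exact Nat.mul_le_mul_left _ hmL
  omega

end FA.TwoLogarithms

end
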