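import Fermat.Agent.TwoLogarithms.Interpolation
import Fermat.Agent.TwoLogarithms.ZeroEstimate
import Mathlib.Analysis.Complex.ExponentialBounds
import Mathlib.Analysis.SpecialFunctions.Log.Basic
import Mathlib.Analysis.SpecialFunctions.Complex.Log
import Mathlib.RingTheory.Binomial

/-!
# Linear forms in two logarithms of rational numbers

Laurent's form of Gelfond's method: `K L` functions `binom (z, k) w ^ l` at the points
`(r b₂ + s b₁, α₁ ^ r α₂ ^ s)` have a nonzero minor; it is rational with a known denominator and,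
if `b₁ log α₁ - b₂ log α₂` is below `4 ^ (-K L)`, it is small by Schwarz's lemma. The boxes for `r`
and `s` are in the ratio of the heights, so the bound is linear in each height.
-/

set_option autoImplicit false

noncomputable section

namespace FA.TwoLogarithms

open Finset

/-- The parameter `A`, `H` being the largest numerator or denominator. -/
def paramA (H : ℕ) : ℕ := 256 * (Nat.log 2 H + 1)

/-- The constant of the theorem. -/
def const (H : ℕ) : ℕ := 3 * paramA H ^ 4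

theorem abs_log_div_le {p q h : ℕ} (hp : 0 < p) (hq : 0 < q) (hph : p ≤ 2 ^ h) (hqh : q ≤ 2 ^ h) :
    |Real.log ((p : ℝ) / q)| ≤ h := by
  have key : ∀ {x : ℕ}, 0 < x → x ≤ 2 ^ h → 0 ≤ Real.log x ∧ Real.log x ≤ h := fun {x} hx hxh => by
    refine ⟨Real.log_natCast_nonneg x, (Real.log_le_log (Nat.cast_pos.2 hx)
      (show (x : ℝ) ≤ (2 : ℝ) ^ h by exact_mod_cast hxh)).trans ?_⟩
    rw [Real.log_pow]
    exact mul_le_of_le_one_right (Nat.cast_nonneg _) (Real.log_two_lt_d9.le.trans (by norm_num))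
  obtain ⟨h1, h2⟩ := key hp hph
  obtain ⟨h3, h4⟩ := key hq hqh
  rw [Real.log_div (Nat.cast_ne_zero.2 hp.ne') (Nat.cast_ne_zero.2 hq.ne'), abs_sub_le_iff]
  constructor <;> linarith

theorem abs_sub_log_lower {p₁ q₁ p₂ q₂ : ℕ} (hp₁ : 0 < p₁) (hq₁ : 0 < q₁) (hp₂ : 0 < p₂)
    (hq₂ : 0 < q₂) {g₁ g₂ : ℕ} (hH₁ : p₁ ≤ 2 ^ g₁ ∧ q₁ ≤ 2 ^ g₁) (hH₂ : p₂ ≤ 2 ^ g₂ ∧ q₂ ≤ 2 ^ g₂)
    {b₁ b₂ : ℤ} (hne : b₁ * Real.log ((p₁ : ℝ) / q₁) - b₂ * Real.log ((p₂ : ℝ) / q₂) ≠ 0) :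
    1 / (2 : ℝ) ^ (g₁ * b₁.natAbs + g₂ * b₂.natAbs + 1) ≤
      |b₁ * Real.log ((p₁ : ℝ) / q₁) - b₂ * Real.log ((p₂ : ℝ) / q₂)| := by
  set Λ := (b₁ : ℝ) * Real.log ((p₁ : ℝ) / q₁) - b₂ * Real.log ((p₂ : ℝ) / q₂)
  rcases le_or_gt 1 |Λ| with hbig | hsmall
  · exact le_trans (by rw [div_le_one (by positivity)]; exact one_le_pow₀ one_le_two) hbig
  have key : ∀ p q g : ℕ, 0 < p → 0 < q → p ≤ 2 ^ g ∧ q ≤ 2 ^ g → ∀ b : ℤ, ∃ N M : ℕ, 0 < M ∧
      ((p : ℝ) / q) ^ b = (N : ℝ) / M ∧ M ≤ 2 ^ (g * b.natAbs) := fun p q g hp hq hh b => by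
    obtain ⟨u, rfl | rfl⟩ := b.eq_nat_or_neg
    · refine ⟨p ^ u, q ^ u, pow_pos hq u, by rw [zpow_natCast, div_pow]; push_cast; rfl, ?_⟩
      rw [Int.natAbs_natCast, pow_mul]
      exact Nat.pow_le_pow_left hh.2 u
    · refine ⟨q ^ u, p ^ u, pow_pos hp u, by
        rw [zpow_neg, zpow_natCast, ← inv_pow, inv_div, div_pow]; push_cast; rfl, ?_⟩
      rw [Int.natAbs_neg, Int.natAbs_natCast, pow_mul]
      exact Nat.pow_le_pow_left hh.1 u
  obtain ⟨N₁, M₁, hM₁, e₁, l₁⟩ := key p₁ q₁ g₁ hp₁ hq₁ hH₁ b₁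
  obtain ⟨N₂, M₂, hM₂, e₂, l₂⟩ := key p₂ q₂ g₂ hp₂ hq₂ hH₂ (-b₂)
  have hexp : Real.exp Λ = ((N₁ * N₂ : ℕ) : ℝ) / (M₁ * M₂ : ℕ) := by
    have hl : ∀ (p q : ℕ) (b : ℤ), 0 < p → 0 < q →
        Real.exp ((b : ℝ) * Real.log ((p : ℝ) / q)) = ((p : ℝ) / q) ^ b := fun p q b hp hq => by
      rw [← Real.log_zpow, Real.exp_log]
      have : (0 : ℝ) < p / q := by positivity
      positivity
    push_cast
    rw [← div_mul_div_comm, ← e₁, ← e₂, ← hl _ _ _ hp₁ hq₁, ← hl _ _ _ hp₂ hq₂, ← Real.exp_add]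
    congr 1
    push_cast
    ring
  set M := M₁ * M₂
  have hM : (0 : ℝ) < M := Nat.cast_pos.2 (Nat.mul_pos hM₁ hM₂)
  have hne1 : ((N₁ * N₂ : ℕ) : ℤ) - M ≠ 0 := fun h0 => by
    refine hne (Real.exp_injective ?_)
    rw [hexp, Real.exp_zero, show (N₁ * N₂ : ℕ) = M by omega, div_self hM.ne']
  have h3 : 1 / (M : ℝ) ≤ |Real.exp Λ - 1| := by
    rw [hexp, div_sub_one hM.ne', abs_div, abs_of_pos hM]
    refine div_le_div_of_nonneg_right ?_ hM.le
    have : (1 : ℤ) ≤ |((N₁ * N₂ : ℕ) : ℤ) - M| := Int.one_le_abs hne1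
    exact_mod_cast this
  have h4 : M ≤ 2 ^ (g₁ * b₁.natAbs + g₂ * b₂.natAbs) := by
    refine (Nat.mul_le_mul l₁ l₂).trans ?_
    rw [← pow_add, Int.natAbs_neg]
  calc 1 / (2 : ℝ) ^ (g₁ * b₁.natAbs + g₂ * b₂.natAbs + 1)
      = 1 / (2 : ℝ) ^ (g₁ * b₁.natAbs + g₂ * b₂.natAbs) / 2 := by rw [pow_succ, div_div]
    _ ≤ 1 / (M : ℝ) / 2 := by
        gcongr
        exact_mod_cast h4
    _ ≤ 2 * |Λ| / 2 := by
        gcongr
        exact h3.trans (Real.abs_exp_sub_one_le hsmall.le)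
    _ = |Λ| := by ring

/-- `binom (y, k)`. -/
def binomC (k : ℕ) (y : ℂ) : ℂ := (∏ i ∈ range k, (y - i)) / k.factorial

theorem exists_binomC_int (k : ℕ) (z : ℤ) :
    ∃ w : ℤ, binomC k z = w ∧ ((∏ i ∈ range k, (z - i) : ℤ) : ℚ) / k.factorial = w := by
  have h : ∏ i ∈ range k, (z - i) = (k.factorial : ℤ) * Ring.choose z k := by
    rw [← nsmul_eq_mul, ← Ring.descPochhammer_eq_factorial_smul_choose,
      ← Polynomial.eval_eq_smeval, descPochhammer_eval_eq_prod_range]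
  refine ⟨Ring.choose z k, ?_, ?_⟩
  · have h1 := congrArg (fun x : ℤ => (x : ℂ)) h
    push_cast at h1
    rw [binomC, h1, mul_div_cancel_left₀ _ (Nat.cast_ne_zero.2 k.factorial_ne_zero)]
  · rw [h]
    push_cast
    rw [mul_div_cancel_left₀ _ (Nat.cast_ne_zero.2 k.factorial_ne_zero)]

/-- No factor `R`: only the quotient of the argument by `K` enters. -/
theorem norm_binomC_le {K k m : ℕ} (hk : k ≤ K) {y : ℂ} (hy : ‖y‖ ≤ K * (2 : ℝ) ^ (m + 2)) :
    ‖binomC k y‖ ≤ (2 : ℝ) ^ ((m + 5) * K) := by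
  have hx : ‖y‖ + K ≤ K * (2 : ℝ) ^ (m + 3) := by
    have : (1 : ℝ) ≤ 2 ^ (m + 2) := one_le_pow₀ one_le_two
    rw [pow_succ (2 : ℝ) (m + 2)]
    nlinarith [Nat.cast_nonneg (α := ℝ) K]
  have h1 : ‖∏ i ∈ range k, (y - i)‖ ≤ (‖y‖ + K) ^ k := by
    rw [norm_prod]
    refine (prod_le_prod (fun i _ => norm_nonneg _) fun i hi => ?_).trans_eq
      (by rw [prod_const, card_range])
    refine (norm_sub_le _ _).trans (by
      rw [Complex.norm_natCast]; gcongr; exact (Finset.mem_range.1 hi).le.trans hk)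
  rw [binomC, norm_div, Complex.norm_natCast]
  set M : ℝ := (2 : ℝ) ^ (m + 3)
  have hM : 0 < M := by positivity
  calc ‖∏ i ∈ range k, (y - i)‖ / k.factorial ≤ (‖y‖ + K) ^ k / k.factorial := by gcongr
    _ = M ^ k * (((‖y‖ + K) / M) ^ k / k.factorial) := by
        rw [div_pow, ← mul_div_assoc, mul_div_cancel₀ _ (by positivity)]
    _ ≤ M ^ K * Real.exp K := by
        refine mul_le_mul (pow_le_pow_right₀ (one_le_pow₀ one_le_two) hk) ?_ (by positivity)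
          (by positivity)
        exact (Real.pow_div_factorial_le_exp _ (by positivity) k).trans
          (Real.exp_le_exp.2 ((div_le_iff₀ hM).2 hx))
    _ ≤ M ^ K * ((2 : ℝ) ^ 2) ^ K := by
        refine mul_le_mul_of_nonneg_left ?_ (by positivity)
        rw [← mul_one (K : ℝ), Real.exp_nat_mul]
        exact pow_le_pow_left₀ (Real.exp_pos _).le (by linarith [Real.exp_one_lt_d9]) K
    _ = (2 : ℝ) ^ ((m + 5) * K) := by
        rw [← mul_pow, ← pow_add, ← pow_mul]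

theorem norm_phi_le {K L k l m D : ℕ} (hk : k < K) (hl : l < L) {x : ℂ} (hx : ‖x‖ ≤ 4)
    {z lam : ℝ} (hz : |z| ≤ K * (2 : ℝ) ^ m) (hlz : |lam * z| ≤ D) :
    ‖binomC k (x * z) * Complex.exp ((l : ℂ) * lam * (x * z))‖ ≤
      (2 : ℝ) ^ ((m + 5) * K + 8 * L * D) := by
  rw [norm_mul, Complex.norm_exp, pow_add]
  refine mul_le_mul (norm_binomC_le hk.le ?_) ?_ (Real.exp_pos _).le (by positivity)
  · rw [norm_mul, Complex.norm_real, Real.norm_eq_abs, pow_add]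
    nlinarith [mul_le_mul hx hz (abs_nonneg z) (by norm_num : (0 : ℝ) ≤ 4)]
  · refine le_trans (Real.exp_le_exp.2 (show _ ≤ ((4 * L * D : ℕ) : ℝ) * 1 from ?_)) ?_
    · refine (Complex.re_le_norm _).trans ?_
      rw [show (l : ℂ) * lam * (x * z) = ((l : ℂ) * x) * ((lam * z : ℝ) : ℂ) by push_cast; ring,
        norm_mul, norm_mul, Complex.norm_natCast, Complex.norm_real, Real.norm_eq_abs]
      calc (l : ℝ) * ‖x‖ * |lam * z| ≤ L * 4 * D := by gcongr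
        _ = ((4 * L * D : ℕ) : ℝ) * 1 := by push_cast; ring
    · rw [Real.exp_nat_mul, show 8 * L * D = 2 * (4 * L * D) by ring, pow_mul (2 : ℝ) 2]
      exact pow_le_pow_left₀ (Real.exp_pos _).le
        (show Real.exp 1 ≤ (2 : ℝ) ^ 2 by linarith [Real.exp_one_lt_d9]) _

/-- The parameters. -/
theorem numeric {g₁ g₂ m : ℕ} (h1 : 1 ≤ g₁) (h2 : 1 ≤ g₂) (hm : 1 ≤ m) :
    let L := 256 * m
    let K := 256 ^ 2 * (g₁ * g₂) * L
    let N := K * L
    let R := 256 * g₂ * L + L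
    let S := 256 * g₁ * L + L
    let eN := 32 + g₁ + g₂ + 2 * m
    N ≤ 2 ^ eN ∧ 2 * L * S ≤ N ∧ L * (g₁ * R + g₂ * S) + (1 + eN) + ((m + 5) * K +
      8 * L * (R * g₁ + 2 * S * g₂)) < N - 1 := by
  intro L K N R S eN
  have hg : 1 ≤ g₁ * g₂ := Nat.mul_pos h1 h2
  have hm2 : m * m ≤ 2 ^ (2 * m) := by
    rw [two_mul, pow_add]
    exact Nat.mul_le_mul Nat.lt_two_pow_self.le Nat.lt_two_pow_self.le
  have hN : N = 256 ^ 4 * (g₁ * g₂) * (m * m) := by simp only [N, K, L]; ring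
  refine ⟨?_, ?_, ?_⟩
  · calc N = 256 ^ 4 * (g₁ * g₂) * (m * m) := hN
      _ ≤ 2 ^ 32 * (2 ^ g₁ * 2 ^ g₂) * 2 ^ (2 * m) := Nat.mul_le_mul (Nat.mul_le_mul
          (le_of_eq (by norm_num)) (Nat.mul_le_mul Nat.lt_two_pow_self.le Nat.lt_two_pow_self.le))
          hm2
      _ = 2 ^ eN := by simp only [eN, pow_add]; ring
  · calc 2 * L * S = (2 * 256 * g₁ + 2) * (L * L) := by simp only [S]; ring
      _ ≤ 256 ^ 2 * (g₁ * g₂) * (L * L) := Nat.mul_le_mul_right _ (by nlinarith)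
      _ = N := by simp only [N, K]; ring
  -- the terms in `L R`
  have e1 : (L * (g₁ * R + g₂ * S) + 8 * L * (R * g₁ + 2 * S * g₂)) * 256 ≤ 52 * N := by
    have h3 : g₁ * (256 * g₂ + 1) ≤ 257 * (g₁ * g₂) ∧ g₂ * (256 * g₁ + 1) ≤ 257 * (g₁ * g₂) :=
      ⟨by nlinarith, by nlinarith⟩
    have h5 : (9 * (g₁ * (256 * g₂ + 1)) + 17 * (g₂ * (256 * g₁ + 1))) * 256 ≤
        52 * (256 ^ 2 * (g₁ * g₂)) := by omega
    calc (L * (g₁ * R + g₂ * S) + 8 * L * (R * g₁ + 2 * S * g₂)) * 256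
        = (9 * (g₁ * (256 * g₂ + 1)) + 17 * (g₂ * (256 * g₁ + 1))) * 256 * (L * L) := by
          simp only [R, S]; ring
      _ ≤ 52 * (256 ^ 2 * (g₁ * g₂)) * (L * L) := Nat.mul_le_mul_right _ h5
      _ = 52 * N := by simp only [N, K]; ring
  have e2 : (m + 5) * K * 256 ≤ 6 * N := by
    calc (m + 5) * K * 256 ≤ 6 * m * K * 256 := by gcongr; omega
      _ = 6 * N := by simp only [N, L]; ring
  have e3 : 256 * (g₁ + g₂ + m + 1) ≤ N := by
    rw [hN]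
    have a1 : g₁ ≤ g₁ * g₂ := Nat.le_mul_of_pos_right _ h2
    have a2 : g₂ ≤ g₁ * g₂ := Nat.le_mul_of_pos_left _ h1
    have a3 : g₁ * g₂ ≤ g₁ * g₂ * (m * m) := Nat.le_mul_of_pos_right _ (Nat.mul_pos hm hm)
    have a4 : m ≤ g₁ * g₂ * (m * m) :=
      (Nat.le_mul_of_pos_left m hm).trans (Nat.le_mul_of_pos_left _ hg)
    rw [mul_assoc]
    omega
  omega

/-- The binomial polynomials form a basis. -/
theorem eq_zero_of_binom_combination {K : ℕ} (c : Fin K → ℚ)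
    (h : ∑ k : Fin K, Polynomial.C (c k / (k.val.factorial : ℚ)) * descPochhammer ℚ k.val = 0) :
    c = 0 := by
  funext k
  by_contra hk
  obtain ⟨k₀, hk₀, hmax⟩ := (univ.filter fun k => c k ≠ 0).exists_max_image (fun k => k.val)
    ⟨k, mem_filter.2 ⟨mem_univ k, hk⟩⟩
  have h1 := congrArg (fun p : Polynomial ℚ => p.coeff k₀.val) h
  simp only [Polynomial.finsetSum_coeff, Polynomial.coeff_C_mul, Polynomial.coeff_zero] at h1
  rw [sum_eq_single k₀ (fun j _ hj => ?_) (fun h0 => absurd (mem_univ _) h0)] at h1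
  · have hlead : (descPochhammer ℚ k₀.val).coeff k₀.val = 1 := by
      have := (monic_descPochhammer ℚ k₀.val).coeff_natDegree
      rwa [descPochhammer_natDegree] at this
    rw [hlead, mul_one, div_eq_zero_iff] at h1
    exact (mem_filter.1 hk₀).2 (h1.resolve_right (Nat.cast_ne_zero.2 (Nat.factorial_ne_zero _)))
  · by_cases hcj : c j = 0
    · simp [hcj]
    have hlt : j.val < k₀.val := lt_of_le_of_ne (hmax j (mem_filter.2 ⟨mem_univ j, hcj⟩))
      fun e => hj (Fin.ext e)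
    rw [Polynomial.coeff_eq_zero_of_natDegree_lt (by rwa [descPochhammer_natDegree]), mul_zero]

set_option maxHeartbeats 1000000 in
/-- **Coprime coefficients.** -/
theorem lower_bound_coprime {p₁ q₁ p₂ q₂ : ℕ} (hp₁ : 0 < p₁) (hq₁ : 0 < q₁) (hp₂ : 0 < p₂)
    (hq₂ : 0 < q₂) {g₁ g₂ : ℕ} (hg₁ : 1 ≤ g₁) (hg₂ : 1 ≤ g₂)
    (hH₁ : p₁ ≤ 2 ^ g₁ ∧ q₁ ≤ 2 ^ g₁) (hH₂ : p₂ ≤ 2 ^ g₂ ∧ q₂ ≤ 2 ^ g₂)
    (hind : ∀ u v : ℤ, u * Real.log ((p₁ : ℝ) / q₁) + v * Real.log ((p₂ : ℝ) / q₂) = 0 →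
      u = 0 ∧ v = 0)
    {b₁ b₂ : ℤ} (hcop : IsCoprime b₁ b₂) {m : ℕ} (hm : 1 ≤ m)
    (hb : g₁ * b₁.natAbs + g₂ * b₂.natAbs ≤ 2 ^ m * (g₁ * g₂)) :
    1 / (2 : ℝ) ^ (3 * (256 ^ 4 * (g₁ * g₂) * m ^ 2)) ≤
      |b₁ * Real.log ((p₁ : ℝ) / q₁) - b₂ * Real.log ((p₂ : ℝ) / q₂)| := by
  classical
  set L := 256 * m with hL
  set K := 256 ^ 2 * (g₁ * g₂) * L with hK
  set N := K * L with hN
  have hN2 : 256 ^ 4 * (g₁ * g₂) * m ^ 2 = N := by simp only [N, K, L]; ring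
  rw [hN2]
  set R := 256 * g₂ * L + L with hR
  set S := 256 * g₁ * L + L with hS
  obtain ⟨hN3, hLS, hnum⟩ := numeric hg₁ hg₂ hm
  simp only [← hL, ← hK, ← hN, ← hR, ← hS] at hN3 hLS hnum
  have hL1 : 256 ≤ L := by omega
  have hN0 : 0 < N := by positivity
  set l₁ := Real.log ((p₁ : ℝ) / q₁) with hl₁
  set l₂ := Real.log ((p₂ : ℝ) / q₂) with hl₂
  set Λ := (b₁ : ℝ) * l₁ - b₂ * l₂ with hΛ
  have hne : Λ ≠ 0 := fun h0 => by
    obtain ⟨h1, h2⟩ := hind b₁ (-b₂) (by push_cast; rw [← h0, hΛ]; ring)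
    rw [h1, neg_eq_zero.1 h2] at hcop
    exact not_isCoprime_zero_zero hcop
  -- small coefficients
  by_cases hsmall : b₁.natAbs ≤ 256 * g₂ * L + 1 ∧ b₂.natAbs ≤ 256 * g₁ * L + 1
  · refine le_trans ?_ (abs_sub_log_lower hp₁ hq₁ hp₂ hq₂ hH₁ hH₂ hne)
    refine one_div_le_one_div_of_le (by positivity) (pow_le_pow_right₀ one_le_two ?_)
    have := Nat.mul_le_mul_left g₁ (hsmall.1.trans (show _ ≤ R by omega))
    have := Nat.mul_le_mul_left g₂ (hsmall.2.trans (show _ ≤ S by omega))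
    have : g₁ * R + g₂ * S ≤ L * (g₁ * R + g₂ * S) := Nat.le_mul_of_pos_left _ (by omega)
    omega
  by_contra hlt
  push Not at hlt
  have hb₂0 : b₂ ≠ 0 := fun h0 => by
    rw [h0, isCoprime_zero_right, Int.isUnit_iff_natAbs_eq] at hcop
    exact hsmall ⟨by omega, by omega⟩
  set α₁ : ℚ := (p₁ : ℚ) / q₁
  set α₂ : ℚ := (p₂ : ℚ) / q₂
  -- the first set of exponents
  let w₁ : Fin L × Fin L → ℚ := fun p => α₁ ^ p.1.val * α₂ ^ p.2.val
  have hw₁ : Function.Injective w₁ := fun p p' he => by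
    have h1 := congrArg (fun x : ℚ => Real.log ((x : ℝ))) he
    simp only [w₁, α₁, α₂] at h1
    push_cast at h1
    have hP : (0 : ℝ) < p₁ / q₁ ∧ (0 : ℝ) < p₂ / q₂ := ⟨by positivity, by positivity⟩
    rw [Real.log_mul (pow_ne_zero _ hP.1.ne') (pow_ne_zero _ hP.2.ne'),
      Real.log_mul (pow_ne_zero _ hP.1.ne') (pow_ne_zero _ hP.2.ne'), Real.log_pow, Real.log_pow,
      Real.log_pow, Real.log_pow] at h1
    obtain ⟨h2, h3⟩ := hind ((p.1.val : ℤ) - p'.1.val) ((p.2.val : ℤ) - p'.2.val) (by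
      push_cast; rw [← hl₁, ← hl₂] at *; linear_combination h1)
    exact Prod.ext (Fin.ext (by omega)) (Fin.ext (by omega))
  -- the second set
  let z₂ : Fin (256 * g₂ * L + 1) × Fin (256 * g₁ * L + 1) → ℚ :=
    fun p => (((p.1.val : ℤ) * b₂ + p.2.val * b₁ : ℤ) : ℚ)
  have hz₂ : Function.Injective z₂ := fun p p' he => by
    simp only [z₂, Int.cast_inj] at he
    have h1 : b₁ ∣ (p.1.val : ℤ) - p'.1.val := hcop.dvd_of_dvd_mul_right
      ⟨(p'.2.val : ℤ) - p.2.val, by linear_combination he⟩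
    have h2 : b₂ ∣ (p.2.val : ℤ) - p'.2.val := hcop.symm.dvd_of_dvd_mul_right
      ⟨(p'.1.val : ℤ) - p.1.val, by linear_combination he⟩
    rcases not_and_or.1 hsmall with hbig | hbig
    · have h3 : (p.1.val : ℤ) - p'.1.val = 0 :=
        Int.eq_zero_of_dvd_of_natAbs_lt_natAbs h1 (by omega)
      have h4 : ((p.2.val : ℤ) - p'.2.val) * b₁ = 0 := by linear_combination he - b₂ * h3
      have := (mul_eq_zero.1 h4).resolve_right fun h0 => hbig (by simp [h0])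
      exact Prod.ext (Fin.ext (by omega)) (Fin.ext (by omega))
    · have h3 : (p.2.val : ℤ) - p'.2.val = 0 :=
        Int.eq_zero_of_dvd_of_natAbs_lt_natAbs h2 (by omega)
      have h4 : ((p.1.val : ℤ) - p'.1.val) * b₂ = 0 := by linear_combination he - b₁ * h3
      have := (mul_eq_zero.1 h4).resolve_right hb₂0
      exact Prod.ext (Fin.ext (by omega)) (Fin.ext (by omega))
  let pts := (Fin L × Fin L) × (Fin (256 * g₂ * L + 1) × Fin (256 * g₁ * L + 1))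
  let rr : pts → ℕ := fun p => p.1.1.val + p.2.1.val
  let ss : pts → ℕ := fun p => p.1.2.val + p.2.2.val
  have hrs : ∀ p : pts, rr p ≤ R ∧ ss p ≤ S := fun p => by
    constructor <;> simp only [rr, ss] <;>
      have := p.1.1.isLt <;> have := p.1.2.isLt <;> have := p.2.1.isLt <;> have := p.2.2.isLt <;>
      omega
  let zz : pts → ℤ := fun p => (rr p : ℤ) * b₂ + ss p * b₁
  let e : Fin N ≃ Fin K × Fin L := finProdFinEquiv.symm
  let bin : ℕ → ℚ → ℚ := fun k z => (descPochhammer ℚ k).eval z / (k.factorial : ℚ)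
  obtain ⟨t, ht⟩ := exists_minor (F := ℚ) (ι := pts) (fun p (j : Fin N) =>
      bin (e j).1.val (zz p : ℚ) * (α₁ ^ rr p * α₂ ^ ss p) ^ (e j).2.val) fun c hc => by
    let Q : Fin L → Polynomial ℚ := fun l => ∑ k : Fin K,
      Polynomial.C (c (e.symm (k, l)) / (k.val.factorial : ℚ)) * descPochhammer ℚ k.val
    have hQdeg : ∀ l, (Q l).natDegree < K := fun l => by
      refine lt_of_le_of_lt
        (Polynomial.natDegree_sum_le_of_forall_le _ _ (n := K - 1) fun k _ => ?_)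
        (by have : 0 < K := by positivity
            omega)
      refine (Polynomial.natDegree_C_mul_le _ _).trans ?_
      rw [descPochhammer_natDegree]
      have := k.isLt
      omega
    have h0 := eq_zero_of_vanishing (F := ℚ) (K := K) (L := L) (z₁ := fun p : Fin L × Fin L =>
        (((p.1.val : ℤ) * b₂ + p.2.val * b₁ : ℤ) : ℚ)) (w₁ := w₁) (z₂ := z₂)
      (w₂ := fun p : Fin (256 * g₂ * L + 1) × Fin (256 * g₁ * L + 1) =>
        α₁ ^ p.1.val * α₂ ^ p.2.val) hw₁ hz₂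
      (fun p => mul_ne_zero (pow_ne_zero _ (by positivity)) (pow_ne_zero _ (by positivity)))
      (by rw [Fintype.card_prod, Fintype.card_fin]; exact Nat.le_mul_self L)
      (by
        rw [Fintype.card_prod, Fintype.card_fin, Fintype.card_fin]
        calc (K - 1) * L ≤ K * L := Nat.mul_le_mul_right _ (Nat.sub_le _ _)
          _ = (256 * g₂ * L) * (256 * g₁ * L) := by rw [hK]; ring
          _ < _ := Nat.mul_lt_mul_of_lt_of_lt (Nat.lt_succ_self _) (Nat.lt_succ_self _))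
      (fun k l => (Q l).coeff k.val) fun p q => ?_
    · funext j
      have hQ0 : Q (e j).2 = 0 := Polynomial.ext fun i => by
        rcases lt_or_ge i K with hi | hi
        · exact congrFun (congrFun h0 ⟨i, hi⟩) (e j).2
        · rw [Polynomial.coeff_eq_zero_of_natDegree_lt ((hQdeg _).trans_le hi),
            Polynomial.coeff_zero]
      simpa using congrFun (eq_zero_of_binom_combination _ hQ0) (e j).1
    · refine Eq.trans ?_ (hc (p, q))
      rw [sum_comm, ← e.symm.sum_comp, Fintype.sum_prod_type_right]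
      refine sum_congr rfl fun l _ => ?_
      rw [← sum_mul, Fin.sum_univ_eq_sum_range (fun i => (Q l).coeff i * _ ^ i),
        ← Polynomial.eval_eq_sum_range' (hQdeg l), Polynomial.eval_finsetSum, sum_mul]
      refine sum_congr rfl fun k _ => ?_
      simp only [Equiv.apply_symm_apply, zz, rr, ss, w₁, z₂, bin, Polynomial.eval_mul,
        Polynomial.eval_C]
      push_cast
      simp only [pow_add, add_mul, add_add_add_comm]
      ring
  set M : Matrix (Fin N) (Fin N) ℚ := Matrix.of fun a j =>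
    bin (e j).1.val (zz (t a) : ℚ) * (α₁ ^ rr (t a) * α₂ ^ ss (t a)) ^ (e j).2.val
  choose Z hZC hZQ using fun (a : Fin N) (j : Fin N) => exists_binomC_int (e j).1.val (zz (t a))
  have hbin : ∀ a j, bin (e j).1.val (zz (t a) : ℚ) = Z a j := fun a j => by
    rw [← hZQ a j]
    simp only [bin, descPochhammer_eval_eq_prod_range]
    push_cast
    rfl
  -- the lower bound
  set P : ℕ := q₁ ^ (L * R) * q₂ ^ (L * S) with hP
  have hlow : 1 ≤ (P : ℝ) ^ N * ‖((M.det : ℚ) : ℂ)‖ := by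
    let Mi : Matrix (Fin N) (Fin N) ℤ := Matrix.of fun a j => Z a j *
      ((p₁ ^ (rr (t a) * (e j).2.val) * q₁ ^ (L * R - rr (t a) * (e j).2.val) *
        (p₂ ^ (ss (t a) * (e j).2.val) * q₂ ^ (L * S - ss (t a) * (e j).2.val)) : ℕ) : ℤ)
    have hPM : ∀ a j, ((Mi a j : ℤ) : ℚ) = (P : ℚ) * M a j := fun a j => by
      have hle : ∀ {x X : ℕ}, x ≤ X → x * (e j).2.val ≤ L * X := fun hx => by
        rw [mul_comm L]; exact Nat.mul_le_mul hx (e j).2.isLt.le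
      simp only [Mi, M, hP, Matrix.of_apply, hbin, α₁, α₂]
      push_cast
      rw [mul_pow, ← pow_mul, ← pow_mul, div_pow, div_pow,
        pow_sub₀ _ (Nat.cast_ne_zero.2 hq₁.ne') (hle (hrs _).1),
        pow_sub₀ _ (Nat.cast_ne_zero.2 hq₂.ne') (hle (hrs _).2)]
      ring
    have hdet : ((Mi.det : ℤ) : ℚ) = (P : ℚ) ^ N * M.det := by
      rw [show ((Mi.det : ℤ) : ℚ) = (Int.castRingHom ℚ) Mi.det from rfl, RingHom.map_det,
        show (Int.castRingHom ℚ).mapMatrix Mi = (P : ℚ) • M from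
          Matrix.ext fun a j => hPM a j, Matrix.det_smul, Fintype.card_fin]
    have h1 : Mi.det ≠ 0 := fun h0 => by
      rw [h0, Int.cast_zero, eq_comm, mul_eq_zero] at hdet
      exact hdet.elim (fun h2 => by simp [hP, hq₁.ne', hq₂.ne'] at h2) ht
    rw [← Complex.norm_natCast, ← norm_pow, ← norm_mul]
    rw [show ((P : ℂ) ^ N * ((M.det : ℚ) : ℂ)) = ((Mi.det : ℤ) : ℂ) by
      rw [← Rat.cast_intCast (α := ℂ), hdet]; push_cast; rfl, Complex.norm_intCast]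
    exact_mod_cast Int.one_le_abs h1
  -- the upper bound
  have hΛ1 : |Λ| * (2 * L * S * (2 : ℝ) ^ (2 * N)) ≤ 1 := by
    have h1 : (2 * L * S * 2 ^ (2 * N) : ℕ) ≤ 2 ^ (3 * N) := by
      calc 2 * L * S * 2 ^ (2 * N) ≤ 2 ^ N * 2 ^ (2 * N) :=
            Nat.mul_le_mul_right _ (hLS.trans Nat.lt_two_pow_self.le)
        _ = 2 ^ (3 * N) := by rw [← pow_add]; congr 1; omega
    calc |Λ| * (2 * L * S * (2 : ℝ) ^ (2 * N)) ≤ 1 / (2 : ℝ) ^ (3 * N) * (2 : ℝ) ^ (3 * N) :=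
          mul_le_mul hlt.le (by exact_mod_cast h1) (by positivity) (by positivity)
      _ = 1 := one_div_mul_cancel (by positivity)
  have hLS1 : (1 : ℝ) ≤ L * S := by
    have : 1 ≤ L * S := Nat.mul_pos (by omega) (by omega)
    exact_mod_cast this
  have hΛ2 : |Λ| ≤ 1 := (le_mul_of_one_le_right (abs_nonneg _)
    (one_le_mul_of_one_le_of_one_le (by linarith) (one_le_pow₀ one_le_two))).trans hΛ1
  set lam : ℝ := l₁ / b₂
  let φ : Fin N → ℂ → ℂ := fun j y =>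
    binomC (e j).1.val y * Complex.exp (((e j).2.val : ℕ) * (lam : ℂ) * y)
  let E : Fin N → Fin N → ℂ := fun j a => φ j (zz (t a) : ℝ) *
    (Complex.exp ((-((e j).2.val * ss (t a) * Λ / b₂) : ℝ)) - 1)
  have hb₂R : (b₂ : ℝ) ≠ 0 := Int.cast_ne_zero.2 hb₂0
  have hlog : ∀ a, lam * zz (t a) = rr (t a) * l₁ + ss (t a) * l₂ + ss (t a) * Λ / b₂ := fun a => by
    simp only [lam, zz, hΛ]
    push_cast
    field_simp
    ring
  have hentry : ∀ a j, ((M a j : ℚ) : ℂ) = φ j (zz (t a) : ℝ) + E j a := fun a j => by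
    simp only [E, φ, M, Matrix.of_apply, hbin, Complex.ofReal_intCast, hZC]
    have hx : ∀ p q r : ℕ, 0 < p → 0 < q →
        (((p : ℚ) / q) ^ r : ℂ) = Complex.exp ((r * Real.log ((p : ℝ) / q) : ℝ)) :=
      fun p q r hp hq => by
      rw [← Complex.ofReal_exp, Real.exp_nat_mul, Real.exp_log (by positivity)]
      push_cast
      rfl
    push_cast [α₁, α₂]
    have hx₁ := hx p₁ q₁ (rr (t a)) hp₁ hq₁
    have hx₂ := hx p₂ q₂ (ss (t a)) hp₂ hq₂
    push_cast at hx₁ hx₂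
    rw [hx₁, hx₂, mul_pow, ← Complex.exp_nat_mul, ← Complex.exp_nat_mul, mul_sub, mul_one,
      add_sub_cancel, mul_assoc, ← Complex.exp_add, ← Complex.exp_add]
    congr 2
    have h1 := congrArg (fun x : ℝ => (x : ℂ)) (hlog a)
    rw [← hl₁, ← hl₂]
    push_cast at h1 ⊢
    linear_combination (-((e j).2.val : ℂ)) * h1
  have habs : |l₁| ≤ g₁ ∧ |l₂| ≤ g₂ :=
    ⟨abs_log_div_le hp₁ hq₁ hH₁.1 hH₁.2, abs_log_div_le hp₂ hq₂ hH₂.1 hH₂.2⟩
  set D := R * g₁ + 2 * S * g₂ with hD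
  set B : ℝ := (2 : ℝ) ^ ((m + 5) * K + 8 * L * D)
  have hb₂1 : (1 : ℝ) ≤ |(b₂ : ℝ)| := by exact_mod_cast Int.one_le_abs hb₂0
  have hzz : ∀ a, |(zz (t a) : ℝ)| ≤ K * (2 : ℝ) ^ m := fun a => by
    have h1 : |zz (t a)| ≤ ((K * 2 ^ m : ℕ) : ℤ) := by
      refine (abs_add_le _ _).trans ?_
      rw [abs_mul, abs_mul, Nat.abs_cast, Nat.abs_cast, ← Int.natCast_natAbs b₁,
        ← Int.natCast_natAbs b₂]
      have h3 : rr (t a) * b₂.natAbs + ss (t a) * b₁.natAbs ≤ K * 2 ^ m := by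
        have hR' : R ≤ 2 * 256 * L * g₂ := by
          have : L ≤ 256 * g₂ * L := Nat.le_mul_of_pos_left _ (by omega)
          simp only [hR]; linarith
        have hS' : S ≤ 2 * 256 * L * g₁ := by
          have : L ≤ 256 * g₁ * L := Nat.le_mul_of_pos_left _ (by omega)
          simp only [hS]; linarith
        calc rr (t a) * b₂.natAbs + ss (t a) * b₁.natAbs
            ≤ 2 * 256 * L * g₂ * b₂.natAbs + 2 * 256 * L * g₁ * b₁.natAbs :=
              Nat.add_le_add (Nat.mul_le_mul_right _ ((hrs _).1.trans hR'))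
                (Nat.mul_le_mul_right _ ((hrs _).2.trans hS'))
          _ = 2 * 256 * L * (g₁ * b₁.natAbs + g₂ * b₂.natAbs) := by ring
          _ ≤ 256 * 256 * L * (2 ^ m * (g₁ * g₂)) := Nat.mul_le_mul (by omega) hb
          _ = K * 2 ^ m := by rw [hK]; ring
      exact_mod_cast h3
    exact_mod_cast h1
  have hlamz : ∀ a, |lam * zz (t a)| ≤ (D : ℝ) := fun a => by
    rw [hlog a]
    have hr : (rr (t a) : ℝ) ≤ R ∧ (ss (t a) : ℝ) ≤ S := by exact_mod_cast hrs (t a)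
    have hg2 : (1 : ℝ) ≤ g₂ := by exact_mod_cast hg₂
    refine (abs_add_three _ _ _).trans ?_
    rw [abs_mul, abs_mul, abs_div, abs_mul, Nat.abs_cast, Nat.abs_cast, hD]
    push_cast
    have h3 : (ss (t a) : ℝ) * |Λ| / |(b₂ : ℝ)| ≤ S * 1 :=
      (div_le_self (by positivity) hb₂1).trans
        (mul_le_mul hr.2 hΛ2 (abs_nonneg _) (Nat.cast_nonneg S))
    nlinarith [mul_le_mul hr.1 habs.1 (abs_nonneg _) (Nat.cast_nonneg R),
      mul_le_mul hr.2 habs.2 (abs_nonneg _) (Nat.cast_nonneg S)]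
  have hB : ∀ j, ∀ x : ℂ, ‖x‖ ≤ 4 → ∀ a, ‖φ j (x * ((zz (t a) : ℝ) : ℂ))‖ ≤ B := fun j x hx a =>
    norm_phi_le (e j).1.isLt (e j).2.isLt hx (hzz a) (hlamz a)
  have hE : ∀ j a, ‖E j a‖ ≤ B / (4 : ℝ) ^ N := fun j a => by
    simp only [E]
    rw [norm_mul]
    have hq : |((e j).2.val : ℝ) * ss (t a) * Λ / b₂| ≤ L * S * |Λ| := by
      rw [abs_div, abs_mul, abs_mul, Nat.abs_cast, Nat.abs_cast]
      refine (div_le_self (by positivity) hb₂1).trans ?_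
      have h1 : ((e j).2.val : ℝ) ≤ L := by exact_mod_cast (e j).2.isLt.le
      have h2 : (ss (t a) : ℝ) ≤ S := by exact_mod_cast (hrs (t a)).2
      gcongr
    have h4 : (2 : ℝ) ^ (2 * N) = (4 : ℝ) ^ N := by rw [pow_mul]; norm_num
    have h5 : L * S * |Λ| ≤ 1 := by
      nlinarith [abs_nonneg Λ, one_le_pow₀ (n := 2 * N) (one_le_two (α := ℝ))]
    have h6 := Complex.norm_exp_sub_one_le
      (x := ((-((e j).2.val * ss (t a) * Λ / b₂) : ℝ) : ℂ))
      (by rw [Complex.norm_real, Real.norm_eq_abs, abs_neg]; linarith)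
    rw [Complex.norm_real, Real.norm_eq_abs, abs_neg] at h6
    have h7 : ‖φ j ((zz (t a) : ℝ) : ℂ)‖ ≤ B := by
      simpa using hB j 1 (by norm_num) a
    rw [div_eq_mul_inv]
    refine mul_le_mul h7 (h6.trans ?_) (norm_nonneg _) ((norm_nonneg _).trans h7)
    rw [← one_div, le_div_iff₀ (by positivity), ← h4]
    calc 2 * |((e j).2.val : ℝ) * ss (t a) * Λ / b₂| * 2 ^ (2 * N)
        ≤ 2 * (L * S * |Λ|) * 2 ^ (2 * N) := by gcongr
      _ ≤ 1 := by linarith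
  have hup : ‖((M.det : ℚ) : ℂ)‖ ≤ 2 ^ N * (N.factorial * B ^ N / (4 : ℝ) ^ N.choose 2) := by
    rw [show ((M.det : ℚ) : ℂ) = (Rat.castHom ℂ) M.det from rfl, RingHom.map_det,
      ← Matrix.det_transpose, show ((Rat.castHom ℂ).mapMatrix M).transpose =
        Matrix.of fun j a => φ j ((zz (t a) : ℝ) : ℂ) + E j a from
          Matrix.ext fun j a => hentry a j]
    exact norm_det_perturbed φ (fun j => by simp only [φ, binomC]; fun_prop) _ E (by norm_num)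
      (by positivity) hB hE
  -- comparison
  set eN := 32 + g₁ + g₂ + 2 * m
  have hNfac : (N.factorial : ℝ) ≤ ((2 : ℝ) ^ eN) ^ N := by
    have : N.factorial ≤ (2 ^ eN) ^ N :=
      (Nat.factorial_le_pow N).trans (Nat.pow_le_pow_left hN3 N)
    exact_mod_cast this
  have hPb : (P : ℝ) ≤ (2 : ℝ) ^ (L * (g₁ * R + g₂ * S)) := by
    have : P ≤ 2 ^ (L * (g₁ * R + g₂ * S)) := by
      refine (Nat.mul_le_mul (Nat.pow_le_pow_left hH₁.2 _)
        (Nat.pow_le_pow_left hH₂.2 _)).trans_eq ?_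
      rw [← pow_mul, ← pow_mul, ← pow_add]; congr 1; ring
    exact_mod_cast this
  have hall := hlow.trans (mul_le_mul_of_nonneg_left hup (by positivity))
  rw [← mul_div_assoc, ← mul_div_assoc, le_div_iff₀ (by positivity), one_mul] at hall
  have h2 : (4 : ℝ) ^ N.choose 2 ≤ ((2 : ℝ) ^ (L * (g₁ * R + g₂ * S) + (1 + eN) +
      ((m + 5) * K + 8 * L * D))) ^ N := by
    refine hall.trans ((mul_le_mul (pow_le_pow_left₀ (Nat.cast_nonneg P) hPb N)
      (mul_le_mul_of_nonneg_left (mul_le_mul_of_nonneg_right hNfac (by positivity))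
        (by positivity)) (by positivity) (by positivity)).trans_eq ?_)
    generalize (L * (g₁ * R + g₂ * S)) = Y
    rw [← mul_pow, ← mul_pow, ← mul_pow]
    congr 1
    simp only [B]
    ring
  rw [show (4 : ℝ) = (2 : ℝ) ^ 2 by norm_num, ← pow_mul, ← pow_mul] at h2
  have h3 := (pow_le_pow_iff_right₀ one_lt_two).1 h2
  rw [Nat.choose_two_right] at h3
  have h4 : N * (N - 1) ≤ 2 * (N * (N - 1) / 2) + 0 := by
    have := Nat.div_mul_cancel (even_iff_two_dvd.1 (Nat.even_mul_pred_self N))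
    omega
  have h5 : N * (N - 1) ≤ (L * (g₁ * R + g₂ * S) + (1 + eN) +
      ((m + 5) * K + 8 * L * D)) * N := by omega
  rw [mul_comm N] at h5
  have h6 := Nat.le_of_mul_le_mul_right h5 hN0
  omega

/-- **Two logarithms, linear in each height.** -/
theorem two_logarithms_sharp_bound {p₁ q₁ p₂ q₂ : ℕ} (hp₁ : 0 < p₁) (hq₁ : 0 < q₁)
    (hp₂ : 0 < p₂) (hq₂ : 0 < q₂) {g₁ g₂ : ℕ} (hg₁ : 1 ≤ g₁) (hg₂ : 1 ≤ g₂)
    (hH₁ : p₁ ≤ 2 ^ g₁ ∧ q₁ ≤ 2 ^ g₁) (hH₂ : p₂ ≤ 2 ^ g₂ ∧ q₂ ≤ 2 ^ g₂)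
    (hind : ∀ u v : ℤ, u * Real.log ((p₁ : ℝ) / q₁) + v * Real.log ((p₂ : ℝ) / q₂) = 0 →
      u = 0 ∧ v = 0)
    {b₁ b₂ : ℤ} (hb0 : b₁ ≠ 0 ∨ b₂ ≠ 0) {m : ℕ} (hm : 1 ≤ m)
    (hb : g₁ * b₁.natAbs + g₂ * b₂.natAbs ≤ 2 ^ m * (g₁ * g₂)) :
    1 / (2 : ℝ) ^ (3 * (256 ^ 4 * (g₁ * g₂) * m ^ 2)) ≤
      |b₁ * Real.log ((p₁ : ℝ) / q₁) - b₂ * Real.log ((p₂ : ℝ) / q₂)| := by
  have hg : 0 < Int.gcd b₁ b₂ := Int.gcd_pos_iff.2 hb0
  obtain ⟨c₁, c₂, hcop, e₁, e₂⟩ := Int.exists_gcd_one hg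
  set g := Int.gcd b₁ b₂
  have hle : ∀ b c : ℤ, b = c * g → c.natAbs ≤ b.natAbs := fun b c e => by
    rw [e, Int.natAbs_mul, Int.natAbs_natCast]
    exact Nat.le_mul_of_pos_right _ hg
  have h := lower_bound_coprime hp₁ hq₁ hp₂ hq₂ hg₁ hg₂ hH₁ hH₂ hind
    (Int.isCoprime_iff_gcd_eq_one.2 hcop) hm
    (le_trans (Nat.add_le_add (Nat.mul_le_mul_left _ (hle _ _ e₁))
      (Nat.mul_le_mul_left _ (hle _ _ e₂))) hb)
  refine h.trans ?_
  rw [e₁, e₂]
  push_cast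
  rw [mul_right_comm (c₁ : ℝ), mul_right_comm (c₂ : ℝ), ← sub_mul, abs_mul, Nat.abs_cast]
  exact le_mul_of_one_le_right (abs_nonneg _) (by exact_mod_cast hg)

theorem two_logarithms_bound {p₁ q₁ p₂ q₂ : ℕ} (hp₁ : 0 < p₁) (hq₁ : 0 < q₁) (hp₂ : 0 < p₂)
    (hq₂ : 0 < q₂) (hind : ∀ u v : ℤ, u * Real.log ((p₁ : ℝ) / q₁) +
      v * Real.log ((p₂ : ℝ) / q₂) = 0 → u = 0 ∧ v = 0)
    {b₁ b₂ : ℤ} (hb : b₁ ≠ 0 ∨ b₂ ≠ 0) :
    Real.exp (-(const (max (max p₁ q₁) (max p₂ q₂)) *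
      ((Nat.log 2 (max b₁.natAbs b₂.natAbs) + 1 : ℕ) : ℝ) ^ 2)) ≤
      |b₁ * Real.log ((p₁ : ℝ) / q₁) - b₂ * Real.log ((p₂ : ℝ) / q₂)| := by
  set H := max (max p₁ q₁) (max p₂ q₂)
  set n := Nat.log 2 (max b₁.natAbs b₂.natAbs) + 1 with hn
  have hlt := Nat.lt_pow_succ_log_self one_lt_two H
  have hH2 : 2 ≤ H := by
    by_contra hlow
    have hh : p₁ = 1 ∧ q₁ = 1 := by simp only [H] at hlow; omega
    exact one_ne_zero (hind 1 0 (by simp [hh.1, hh.2])).1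
  set h := Nat.log 2 H + 1 with hh
  have h2 : 2 ≤ h := by
    have := Nat.log_pos one_lt_two hH2
    omega
  have hsum : h * b₁.natAbs + h * b₂.natAbs ≤ 2 ^ n * (h * h) := by
    have hB : max b₁.natAbs b₂.natAbs < 2 ^ n := Nat.lt_pow_succ_log_self one_lt_two _
    calc h * b₁.natAbs + h * b₂.natAbs = h * (b₁.natAbs + b₂.natAbs) := by ring
      _ ≤ h * (2 ^ n * h) := Nat.mul_le_mul_left _ (le_trans (by omega : _ ≤ 2 ^ n * 2)
          (Nat.mul_le_mul_left _ h2))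
      _ = 2 ^ n * (h * h) := by ring
  refine le_trans ?_ (two_logarithms_sharp_bound hp₁ hq₁ hp₂ hq₂ (g₁ := h) (g₂ := h)
    (by omega) (by omega) ⟨le_trans (by simp only [H]; omega) hlt.le,
      le_trans (by simp only [H]; omega) hlt.le⟩
    ⟨le_trans (by simp only [H]; omega) hlt.le, le_trans (by simp only [H]; omega) hlt.le⟩
    hind hb (m := n) (Nat.succ_pos _) hsum)
  have hC : 3 * (256 ^ 4 * (h * h) * n ^ 2) ≤ const H * n ^ 2 := by
    simp only [const, paramA, ← hh]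
    calc 3 * (256 ^ 4 * (h * h) * n ^ 2) = 3 * 256 ^ 4 * n ^ 2 * (h ^ 2 * 1) := by ring
      _ ≤ 3 * 256 ^ 4 * n ^ 2 * (h ^ 2 * h ^ 2) := by
          gcongr
          exact Nat.one_le_pow _ _ (by omega)
      _ = 3 * (256 * h) ^ 4 * n ^ 2 := by ring
  rw [Real.exp_neg, one_div]
  refine inv_anti₀ (by positivity) ((pow_le_pow_right₀ one_le_two hC).trans ?_)
  rw [show (const H : ℝ) * ((n : ℕ) : ℝ) ^ 2 = ((const H * n ^ 2 : ℕ) : ℝ) * 1 by
    push_cast; ring, Real.exp_nat_mul]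
  exact pow_le_pow_left₀ zero_le_two (by linarith [Real.exp_one_gt_d9]) _

end FA.TwoLogarithms

end
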