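import Fermat.Agent.TwoLogarithms.PadicDet
import Fermat.Agent.TwoLogarithms.Main
import Mathlib.Data.ZMod.Basic
import Mathlib.NumberTheory.Basic
import Mathlib.RingTheory.Int.Basic
import Mathlib.Analysis.Complex.Exponential
import Mathlib.Algebra.Ring.GeomSum
import Mathlib.LinearAlgebra.Matrix.AbsoluteValue

/-!
# `p`-adic linear forms in two logarithms

If `A ≡ B ≡ 1 (mod p)` and `p ^ M ∣ A ^ b₁ - B ^ b₂` with `p ∤ b₂` then, modulo `p ^ M`,
`A ^ (r l) B ^ (s l) = X ^ z` for `z = r b₂ + s b₁` and a fixed `X ≡ 1 (mod p)`. So the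
interpolation determinant in `binom (z, k) (A ^ r B ^ s) ^ l` is an integer divisible by a high
power of `p`, which contradicts its size when `M` is at least its order.
-/

set_option autoImplicit false

noncomputable section

namespace FA.TwoLogarithms

open Finset

theorem eq_of_monomial_eq {A B : ℕ} (hA : 2 ≤ A) (hB : 2 ≤ B)
    (hind : ∀ u v : ℕ, A ^ u = B ^ v → u = 0 ∧ v = 0) {r s r' s' : ℕ}
    (h : A ^ r * B ^ s = A ^ r' * B ^ s') : r = r' ∧ s = s' := by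
  wlog hr : r' ≤ r generalizing r s r' s'
  · exact (this h.symm (Nat.le_of_not_le hr)).imp Eq.symm Eq.symm
  obtain ⟨u, rfl⟩ := Nat.exists_eq_add_of_le hr
  rw [pow_add, mul_assoc] at h
  have h1 : A ^ u * B ^ s = B ^ s' := Nat.eq_of_mul_eq_mul_left (by positivity) h
  rcases le_or_gt s s' with hs | hs
  · obtain ⟨v, rfl⟩ := Nat.exists_eq_add_of_le hs
    rw [pow_add, mul_comm] at h1
    obtain ⟨rfl, rfl⟩ := hind u v (Nat.eq_of_mul_eq_mul_left (by positivity) h1)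
    omega
  · obtain ⟨v, rfl⟩ := Nat.exists_eq_add_of_le hs.le
    rw [pow_add, mul_left_comm] at h1
    have h2 : A ^ u * B ^ v = 1 :=
      Nat.eq_of_mul_eq_mul_left (show 0 < B ^ s' by positivity) (by rw [h1, mul_one])
    obtain ⟨-, h3⟩ := mul_eq_one.1 h2
    rcases Nat.pow_eq_one.1 h3 with h4 | h4 <;> omega

theorem choose_le_two_pow {K k m z : ℕ} (hk : k ≤ K) (hz : z ≤ K * 2 ^ m) :
    z.choose k ≤ 2 ^ ((m + 2) * K) := by
  suffices h : (z.choose k : ℝ) ≤ (2 : ℝ) ^ ((m + 2) * K) by exact_mod_cast h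
  set M : ℝ := (2 : ℝ) ^ m with hM
  have hM0 : 0 < M := by positivity
  have hzM : (z : ℝ) / M ≤ K := (div_le_iff₀ hM0).2 (by rw [hM]; exact_mod_cast hz)
  calc (z.choose k : ℝ) ≤ (z : ℝ) ^ k / k.factorial := Nat.choose_le_pow_div k z
    _ = M ^ k * (((z : ℝ) / M) ^ k / k.factorial) := by
        rw [div_pow, ← mul_div_assoc, mul_div_cancel₀ _ (by positivity)]
    _ ≤ M ^ K * Real.exp K := by
        refine mul_le_mul (pow_le_pow_right₀ (one_le_pow₀ one_le_two) hk) ?_ (by positivity)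
          (by positivity)
        exact (Real.pow_div_factorial_le_exp _ (by positivity) k).trans (Real.exp_le_exp.2 hzM)
    _ ≤ M ^ K * ((2 : ℝ) ^ 2) ^ K := by
        refine mul_le_mul_of_nonneg_left ?_ (by positivity)
        rw [← mul_one (K : ℝ), Real.exp_nat_mul]
        exact pow_le_pow_left₀ (Real.exp_pos _).le (by linarith [Real.exp_one_lt_d9]) K
    _ = (2 : ℝ) ^ ((m + 2) * K) := by rw [hM, ← mul_pow, ← pow_add, ← pow_mul]

/-- The parameters of the `p`-adic proof. -/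
theorem padic_numeric {g₁ g₂ m : ℕ} (h1 : 1 ≤ g₁) (h2 : 1 ≤ g₂) (hm : 1 ≤ m) :
    let L := 256 * m
    let K := 256 ^ 2 * (g₁ * g₂) * L
    let N := K * L
    let R := 256 * g₂ * L + L
    let S := 256 * g₁ * L + L
    let eN := 32 + g₁ + g₂ + 2 * m
    g₁ * R + g₂ * S ≤ N ∧ 2 * (K + eN + (m + 2) * K + L * (g₁ * R + g₂ * S)) < N - 1 := by
  intro L K N R S eN
  have hN : N = 256 ^ 4 * (g₁ * g₂) * (m * m) := by simp only [N, K, L]; ring
  have e1 : L * (g₁ * R + g₂ * S) * 256 ≤ 3 * N := by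
    calc L * (g₁ * R + g₂ * S) * 256
        = (g₁ * (256 * g₂ + 1) + g₂ * (256 * g₁ + 1)) * 256 * (L * L) := by
          simp only [R, S]; ring
      _ ≤ 3 * (256 ^ 2 * (g₁ * g₂)) * (L * L) := Nat.mul_le_mul_right _ (by nlinarith)
      _ = 3 * N := by simp only [N, K]; ring
  have e2 : (K + (m + 2) * K) * 256 ≤ 4 * N := by
    calc (K + (m + 2) * K) * 256 = (m + 3) * K * 256 := by ring
      _ ≤ 4 * m * K * 256 := by gcongr; omega
      _ = 4 * N := by simp only [N, L]; ring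
  have e3 : 256 * (g₁ + g₂ + m + 1) ≤ N := by
    rw [hN]
    have a0 : 1 ≤ g₁ * g₂ := Nat.mul_pos h1 h2
    have a1 : g₁ ≤ g₁ * g₂ := Nat.le_mul_of_pos_right _ h2
    have a2 : g₂ ≤ g₁ * g₂ := Nat.le_mul_of_pos_left _ h1
    have a3 : g₁ * g₂ ≤ g₁ * g₂ * (m * m) := Nat.le_mul_of_pos_right _ (Nat.mul_pos hm hm)
    have a4 : m ≤ g₁ * g₂ * (m * m) :=
      (Nat.le_mul_of_pos_left m hm).trans (Nat.le_mul_of_pos_left _ a0)
    rw [mul_assoc]
    omega
  have e0 : g₁ * R + g₂ * S ≤ L * (g₁ * R + g₂ * S) :=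
    Nat.le_mul_of_pos_left _ (show 0 < 256 * m by omega)
  constructor <;> omega

set_option maxHeartbeats 1000000 in
/-- **Coprime exponents, the second prime to `p`.** -/
theorem padic_bound_coprime {p : ℕ} (hp : p.Prime) {A B g₁ g₂ : ℕ} (hg₁ : 1 ≤ g₁) (hg₂ : 1 ≤ g₂)
    (hA : 2 ≤ A ∧ A ≤ 2 ^ g₁) (hB : 2 ≤ B ∧ B ≤ 2 ^ g₂) (hA1 : (p : ℤ) ∣ (A : ℤ) - 1)
    (hB1 : (p : ℤ) ∣ (B : ℤ) - 1) (hind : ∀ u v : ℕ, A ^ u = B ^ v → u = 0 ∧ v = 0)
    {b₁ b₂ : ℕ} (hcop : Nat.Coprime b₁ b₂) (hpb : ¬ p ∣ b₂) {m : ℕ} (hm : 1 ≤ m)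
    (hb : g₁ * b₁ + g₂ * b₂ ≤ 2 ^ m * (g₁ * g₂)) {M : ℕ}
    (hdvd : (p : ℤ) ^ M ∣ (A : ℤ) ^ b₁ - (B : ℤ) ^ b₂) :
    M ≤ 256 ^ 4 * (g₁ * g₂) * m ^ 2 := by
  classical
  set L := 256 * m with hL
  set K := 256 ^ 2 * (g₁ * g₂) * L with hK
  set N := K * L with hN
  have hN2 : 256 ^ 4 * (g₁ * g₂) * m ^ 2 = N := by simp only [N, K, L]; ring
  rw [hN2]
  set R := 256 * g₂ * L + L with hR
  set S := 256 * g₁ * L + L with hS
  obtain ⟨hsize, hnum⟩ := padic_numeric hg₁ hg₂ hm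
  simp only [← hL, ← hK, ← hN, ← hR, ← hS] at hsize hnum
  have hN3 := (numeric hg₁ hg₂ hm).1
  simp only [← hL, ← hK, ← hN] at hN3
  have hL1 : 256 ≤ L := by omega
  have hN0 : 0 < N := by positivity
  have hb₂0 : b₂ ≠ 0 := fun h => hpb (h ▸ dvd_zero p)
  -- small exponents
  by_cases hsmall : b₁ ≤ 256 * g₂ * L + 1 ∧ b₂ ≤ 256 * g₁ * L + 1
  · have hne : (A : ℤ) ^ b₁ - (B : ℤ) ^ b₂ ≠ 0 := fun h => by
      rw [sub_eq_zero] at h
      exact hb₂0 (hind b₁ b₂ (by exact_mod_cast h)).2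
    have h1 := Int.le_of_dvd (abs_pos.2 hne) ((dvd_abs _ _).2 hdvd)
    have h2 : |(A : ℤ) ^ b₁ - (B : ℤ) ^ b₂| ≤ (2 : ℤ) ^ (g₁ * R + g₂ * S) := by
      have a1 : A ^ b₁ ≤ 2 ^ (g₁ * R + g₂ * S) := by
        refine (Nat.pow_le_pow_left hA.2 _).trans ?_
        rw [← pow_mul]
        refine Nat.pow_le_pow_right two_pos ?_
        have := Nat.mul_le_mul_left g₁ (hsmall.1.trans (show _ ≤ R by omega))
        omega
      have a2 : B ^ b₂ ≤ 2 ^ (g₁ * R + g₂ * S) := by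
        refine (Nat.pow_le_pow_left hB.2 _).trans ?_
        rw [← pow_mul]
        refine Nat.pow_le_pow_right two_pos ?_
        have := Nat.mul_le_mul_left g₂ (hsmall.2.trans (show _ ≤ S by omega))
        omega
      have c1 : (A : ℤ) ^ b₁ ≤ 2 ^ (g₁ * R + g₂ * S) := by exact_mod_cast a1
      have c2 : (B : ℤ) ^ b₂ ≤ 2 ^ (g₁ * R + g₂ * S) := by exact_mod_cast a2
      exact (abs_sub_le_of_nonneg_of_le (by positivity) c1 (by positivity) c2)
    have h3 : (2 : ℤ) ^ M ≤ (2 : ℤ) ^ (g₁ * R + g₂ * S) :=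
      (pow_le_pow_left₀ zero_le_two (by exact_mod_cast hp.two_le) M).trans (h1.trans h2)
    exact ((pow_le_pow_iff_right₀ one_lt_two).1 h3).trans hsize
  by_contra hlt
  push Not at hlt
  -- the congruence
  set P := p ^ M with hP
  have hP1 : 1 < P := Nat.one_lt_pow (by omega) hp.one_lt
  obtain ⟨u, -, hu⟩ := Nat.exists_mul_mod_eq_one_of_coprime
    (((Nat.Prime.coprime_iff_not_dvd hp).2 hpb).pow_left M).symm hP1
  obtain ⟨w, hw⟩ : ∃ w, b₂ * u = 1 + P * w :=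
    ⟨b₂ * u / P, by have := Nat.mod_add_div (b₂ * u) P; rw [hu] at this; omega⟩
  have hfix : ∀ x : ℕ, (p : ℤ) ∣ (x : ℤ) - 1 → (x : ZMod P) ^ (b₂ * u) = x := fun x hx => by
    have h1 : ((((x : ℤ) ^ p ^ M - 1) : ℤ) : ZMod P) = 0 := by
      rw [ZMod.intCast_zmod_eq_zero_iff_dvd, hP, Nat.cast_pow]
      have := dvd_sub_pow_of_dvd_sub (R := ℤ) (p := p) hx M
      rw [one_pow] at this
      exact (pow_dvd_pow _ (Nat.le_succ M)).trans this
    push_cast at h1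
    rw [sub_eq_zero] at h1
    rw [hw, pow_add, pow_one, pow_mul, hP, h1, one_pow, mul_one]
  have hab : (A : ZMod P) ^ b₁ = (B : ZMod P) ^ b₂ := by
    have h1 : ((((A : ℤ) ^ b₁ - (B : ℤ) ^ b₂) : ℤ) : ZMod P) = 0 := by
      rw [ZMod.intCast_zmod_eq_zero_iff_dvd, hP, Nat.cast_pow]
      exact hdvd
    push_cast at h1
    rwa [sub_eq_zero] at h1
  have hcong : ∀ r s l : ℕ, (p : ℤ) ^ N ∣
      ((A ^ r * B ^ s) ^ l : ℕ) - (((A : ℤ) ^ (u * l)) ^ (r * b₂ + s * b₁)) := fun r s l => by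
    refine (pow_dvd_pow _ hlt.le).trans ?_
    rw [← Nat.cast_pow p M, ← hP, ← ZMod.intCast_zmod_eq_zero_iff_dvd]
    push_cast
    rw [sub_eq_zero]
    calc ((A : ZMod P) ^ r * (B : ZMod P) ^ s) ^ l
        = (((A : ZMod P) ^ (b₂ * u)) ^ r * ((B : ZMod P) ^ (b₂ * u)) ^ s) ^ l := by
          rw [hfix A hA1, hfix B hB1]
      _ = ((A : ZMod P) ^ (b₂ * u * r) * (((B : ZMod P) ^ b₂) ^ (u * s))) ^ l := by
          simp only [← pow_mul, mul_assoc]
      _ = _ := by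
          rw [← hab, ← pow_mul, ← pow_add, ← pow_mul, ← pow_mul]
          ring_nf
  -- the first set of exponents
  let w₁ : Fin L × Fin L → ℚ := fun q => (A : ℚ) ^ q.1.val * (B : ℚ) ^ q.2.val
  have hw₁ : Function.Injective w₁ := fun q q' he => by
    simp only [w₁] at he
    obtain ⟨h2, h3⟩ := eq_of_monomial_eq hA.1 hB.1 hind
      (r := q.1.val) (s := q.2.val) (r' := q'.1.val) (s' := q'.2.val) (by exact_mod_cast he)
    exact Prod.ext (Fin.ext h2) (Fin.ext h3)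
  -- the second set
  let z₂ : Fin (256 * g₂ * L + 1) × Fin (256 * g₁ * L + 1) → ℚ :=
    fun q => ((q.1.val * b₂ + q.2.val * b₁ : ℕ) : ℚ)
  have hz₂ : Function.Injective z₂ := fun q q' he => by
    have he' : (q.1.val : ℤ) * b₂ + q.2.val * b₁ = q'.1.val * b₂ + q'.2.val * b₁ := by
      simp only [z₂, Nat.cast_inj] at he
      exact_mod_cast he
    have hc : IsCoprime (b₁ : ℤ) (b₂ : ℤ) := Nat.isCoprime_iff_coprime.2 hcop
    have h1 : (b₁ : ℤ) ∣ (q.1.val : ℤ) - q'.1.val := hc.dvd_of_dvd_mul_right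
      ⟨(q'.2.val : ℤ) - q.2.val, by linear_combination he'⟩
    have h2 : (b₂ : ℤ) ∣ (q.2.val : ℤ) - q'.2.val := hc.symm.dvd_of_dvd_mul_right
      ⟨(q'.1.val : ℤ) - q.1.val, by linear_combination he'⟩
    rcases not_and_or.1 hsmall with hbig | hbig
    · have h3 : (q.1.val : ℤ) - q'.1.val = 0 :=
        Int.eq_zero_of_dvd_of_natAbs_lt_natAbs h1 (by omega)
      have h4 : ((q.2.val : ℤ) - q'.2.val) * b₁ = 0 := by linear_combination he' - (b₂ : ℤ) * h3
      have := (mul_eq_zero.1 h4).resolve_right (by omega)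
      exact Prod.ext (Fin.ext (by omega)) (Fin.ext (by omega))
    · have h3 : (q.2.val : ℤ) - q'.2.val = 0 :=
        Int.eq_zero_of_dvd_of_natAbs_lt_natAbs h2 (by omega)
      have h4 : ((q.1.val : ℤ) - q'.1.val) * b₂ = 0 := by linear_combination he' - (b₁ : ℤ) * h3
      have := (mul_eq_zero.1 h4).resolve_right (by omega)
      exact Prod.ext (Fin.ext (by omega)) (Fin.ext (by omega))
  let pts := (Fin L × Fin L) × (Fin (256 * g₂ * L + 1) × Fin (256 * g₁ * L + 1))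
  let rr : pts → ℕ := fun q => q.1.1.val + q.2.1.val
  let ss : pts → ℕ := fun q => q.1.2.val + q.2.2.val
  have hrs : ∀ q : pts, rr q ≤ R ∧ ss q ≤ S := fun q => by
    constructor <;> simp only [rr, ss] <;>
      have := q.1.1.isLt <;> have := q.1.2.isLt <;> have := q.2.1.isLt <;> have := q.2.2.isLt <;>
      omega
  let zz : pts → ℕ := fun q => rr q * b₂ + ss q * b₁
  let e : Fin N ≃ Fin K × Fin L := finProdFinEquiv.symm
  obtain ⟨t, ht⟩ := exists_minor (F := ℚ) (ι := pts) (fun q (j : Fin N) =>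
      (((zz q).choose (e j).1.val * (A ^ rr q * B ^ ss q) ^ (e j).2.val : ℕ) : ℚ)) fun c hc => by
    let Q : Fin L → Polynomial ℚ := fun l => ∑ k : Fin K,
      Polynomial.C (c (e.symm (k, l)) / (k.val.factorial : ℚ)) * descPochhammer ℚ k.val
    have hQdeg : ∀ l, (Q l).natDegree < K := fun l => by
      refine lt_of_le_of_lt
        (Polynomial.natDegree_sum_le_of_forall_le _ _ (n := K - 1) fun k _ => ?_)
        (by have : 0 < K := by positivity
            omega)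
      refine (Polynomial.natDegree_C_mul_le _ _).trans ?_
      rw [descPochhammer_natDegree]
      have := k.isLt
      omega
    have h0 := eq_zero_of_vanishing (F := ℚ) (K := K) (L := L) (z₁ := fun q : Fin L × Fin L =>
        ((q.1.val * b₂ + q.2.val * b₁ : ℕ) : ℚ)) (w₁ := w₁) (z₂ := z₂)
      (w₂ := fun q : Fin (256 * g₂ * L + 1) × Fin (256 * g₁ * L + 1) =>
        (A : ℚ) ^ q.1.val * (B : ℚ) ^ q.2.val) hw₁ hz₂
      (fun q => mul_ne_zero (pow_ne_zero _ (Nat.cast_ne_zero.2 (by omega)))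
        (pow_ne_zero _ (Nat.cast_ne_zero.2 (by omega))))
      (by rw [Fintype.card_prod, Fintype.card_fin]; exact Nat.le_mul_self L)
      (by
        rw [Fintype.card_prod, Fintype.card_fin, Fintype.card_fin]
        calc (K - 1) * L ≤ K * L := Nat.mul_le_mul_right _ (Nat.sub_le _ _)
          _ = (256 * g₂ * L) * (256 * g₁ * L) := by rw [hK]; ring
          _ < _ := Nat.mul_lt_mul_of_lt_of_lt (Nat.lt_succ_self _) (Nat.lt_succ_self _))
      (fun k l => (Q l).coeff k.val) fun q q' => ?_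
    · funext j
      have hQ0 : Q (e j).2 = 0 := Polynomial.ext fun i => by
        rcases lt_or_ge i K with hi | hi
        · exact congrFun (congrFun h0 ⟨i, hi⟩) (e j).2
        · rw [Polynomial.coeff_eq_zero_of_natDegree_lt ((hQdeg _).trans_le hi),
            Polynomial.coeff_zero]
      simpa using congrFun (eq_zero_of_binom_combination _ hQ0) (e j).1
    · refine Eq.trans ?_ (hc (q, q'))
      rw [sum_comm, ← e.symm.sum_comp, Fintype.sum_prod_type_right]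
      refine sum_congr rfl fun l _ => ?_
      rw [← sum_mul, Fin.sum_univ_eq_sum_range (fun i => (Q l).coeff i * _ ^ i),
        ← Polynomial.eval_eq_sum_range' (hQdeg l), Polynomial.eval_finsetSum, sum_mul]
      refine sum_congr rfl fun k _ => ?_
      simp only [Equiv.apply_symm_apply, zz, rr, ss, w₁, z₂, Polynomial.eval_mul, Polynomial.eval_C]
      push_cast [Nat.cast_choose_eq_descPochhammer_div]
      simp only [pow_add, add_mul, add_add_add_comm]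
      ring
  set Mi : Matrix (Fin N) (Fin N) ℤ := Matrix.of fun j a =>
    (((zz (t a)).choose (e j).1.val * (A ^ rr (t a) * B ^ ss (t a)) ^ (e j).2.val : ℕ) : ℤ)
  have hne : Mi.det ≠ 0 := fun h0 => by
    refine ht ?_
    rw [← Matrix.det_transpose, show (Matrix.of fun a j => (((zz (t a)).choose (e j).1.val *
        (A ^ rr (t a) * B ^ ss (t a)) ^ (e j).2.val : ℕ) : ℚ)).transpose =
      (Int.castRingHom ℚ).mapMatrix Mi from Matrix.ext fun j a => by simp [Mi],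
      ← RingHom.map_det, h0, map_zero]
  -- divisibility
  have hcol : ∀ j : Fin N, ∃ (c : ℕ → ℤ) (E : Fin N → ℤ), (∀ q, (p : ℤ) ^ (q - K) ∣ c q) ∧
      ∀ a, Mi j a = ∑ q ∈ range (N + K + 1), c q * ((zz (t a)).choose q : ℤ) +
        (p : ℤ) ^ N * E a := fun j => by
    obtain ⟨c, hc, hexp⟩ := exists_column_expansion p ((A : ℤ) ^ (u * (e j).2.val) - 1)
      (hA1.trans (sub_one_dvd_pow_sub_one _ _)) N (k := (e j).1.val) (K := K) (e j).1.isLt.le
    choose E hE using hexp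
    choose E' hE' using fun a => hcong (rr (t a)) (ss (t a)) (e j).2.val
    refine ⟨c, fun a => E (zz (t a)) + ((zz (t a)).choose (e j).1.val : ℤ) * E' a, hc,
      fun a => ?_⟩
    have h1 := hE (zz (t a))
    rw [add_sub_cancel] at h1
    have h2 := hE' a
    change _ - ((A : ℤ) ^ _) ^ zz (t a) = _ at h2
    simp only [Mi, Matrix.of_apply]
    push_cast at h2 ⊢
    linear_combination h1 + ((zz (t a)).choose (e j).1.val : ℤ) * h2
  choose c E hc hE using hcol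
  have hlow : (p : ℤ) ^ (N.choose 2 - N * K) ∣ Mi.det := by
    have h := pow_dvd_det (p : ℤ) K (Q := N + K + 1)
      (fun q a => ((zz (t a)).choose q : ℤ)) c E hc
    rwa [show (Matrix.of fun j a => ∑ q ∈ range (N + K + 1),
      c j q * ((zz (t a)).choose q : ℤ) + (p : ℤ) ^ N * E j a) = Mi from
        Matrix.ext fun j a => (hE j a).symm] at h
  -- size
  have hzz : ∀ q, zz q ≤ K * 2 ^ m := fun q => by
    have hR' : R ≤ 2 * 256 * L * g₂ := by
      have : L ≤ 256 * g₂ * L := Nat.le_mul_of_pos_left _ (by omega)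
      simp only [hR]; linarith
    have hS' : S ≤ 2 * 256 * L * g₁ := by
      have : L ≤ 256 * g₁ * L := Nat.le_mul_of_pos_left _ (by omega)
      simp only [hS]; linarith
    calc zz q ≤ 2 * 256 * L * g₂ * b₂ + 2 * 256 * L * g₁ * b₁ :=
          Nat.add_le_add (Nat.mul_le_mul_right _ ((hrs q).1.trans hR'))
            (Nat.mul_le_mul_right _ ((hrs q).2.trans hS'))
      _ = 2 * 256 * L * (g₁ * b₁ + g₂ * b₂) := by ring
      _ ≤ 256 * 256 * L * (2 ^ m * (g₁ * g₂)) := Nat.mul_le_mul (by omega) hb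
      _ = K * 2 ^ m := by rw [hK]; ring
  set T := (m + 2) * K + L * (g₁ * R + g₂ * S) with hT
  have hentry : ∀ j a, AbsoluteValue.abs (Mi j a) ≤ ((2 : ℤ) ^ T) := fun j a => by
    simp only [Mi, Matrix.of_apply, AbsoluteValue.abs_apply, Nat.abs_cast]
    suffices h : (zz (t a)).choose (e j).1.val *
        (A ^ rr (t a) * B ^ ss (t a)) ^ (e j).2.val ≤ 2 ^ T by exact_mod_cast h
    rw [hT, pow_add 2 ((m + 2) * K)]
    refine Nat.mul_le_mul (choose_le_two_pow (e j).1.isLt.le (hzz _)) ?_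
    calc (A ^ rr (t a) * B ^ ss (t a)) ^ (e j).2.val
        ≤ ((2 ^ g₁) ^ R * (2 ^ g₂) ^ S) ^ (e j).2.val :=
          Nat.pow_le_pow_left (Nat.mul_le_mul
            ((Nat.pow_le_pow_left hA.2 _).trans (Nat.pow_le_pow_right (by positivity) (hrs _).1))
            ((Nat.pow_le_pow_left hB.2 _).trans (Nat.pow_le_pow_right (by positivity) (hrs _).2))) _
      _ ≤ ((2 ^ g₁) ^ R * (2 ^ g₂) ^ S) ^ L :=
          Nat.pow_le_pow_right (by positivity) (e j).2.isLt.le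
      _ = 2 ^ (L * (g₁ * R + g₂ * S)) := by
          rw [← pow_mul, ← pow_mul, ← pow_add, ← pow_mul, mul_comm]
  have hup := Matrix.det_le (A := Mi) hentry
  rw [AbsoluteValue.abs_apply, Fintype.card_fin, nsmul_eq_mul] at hup
  -- comparison
  set eN := 32 + g₁ + g₂ + 2 * m
  have hfac : (N.factorial : ℤ) ≤ ((2 : ℤ) ^ eN) ^ N := by
    exact_mod_cast (Nat.factorial_le_pow N).trans (Nat.pow_le_pow_left hN3 N)
  have hchain : (2 : ℤ) ^ (N.choose 2 - N * K) ≤ (2 : ℤ) ^ ((eN + T) * N) := by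
    calc (2 : ℤ) ^ (N.choose 2 - N * K) ≤ (p : ℤ) ^ (N.choose 2 - N * K) :=
          pow_le_pow_left₀ zero_le_two (by exact_mod_cast hp.two_le) _
      _ ≤ |Mi.det| := Int.le_of_dvd (abs_pos.2 hne) ((dvd_abs _ _).2 hlow)
      _ ≤ (N.factorial : ℤ) * ((2 : ℤ) ^ T) ^ N := hup
      _ ≤ ((2 : ℤ) ^ eN) ^ N * ((2 : ℤ) ^ T) ^ N := by gcongr
      _ = _ := by rw [← mul_pow, ← pow_add, ← pow_mul]
  have h1 := (pow_le_pow_iff_right₀ one_lt_two).1 hchain
  rw [Nat.choose_two_right] at h1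
  have h2 : N * (N - 1) / 2 * 2 = N * (N - 1) :=
    Nat.div_mul_cancel (even_iff_two_dvd.1 (Nat.even_mul_pred_self N))
  have h3 : N * (N - 1) ≤ N * (2 * (K + eN + T)) := by
    rw [show N * (2 * (K + eN + T)) = 2 * ((eN + T) * N + N * K) by ring]
    omega
  have h4 := Nat.le_of_mul_le_mul_left h3 hN0
  omega

/-- A prime to `p` factor and one factor `p` in the exponent. -/
theorem pow_dvd_of_pow_sub_pow {p : ℕ} (hp : p.Prime) {U V : ℤ} (hU : (p : ℤ) ^ 2 ∣ U - 1)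
    (hV : (p : ℤ) ^ 2 ∣ V - 1) {g : ℕ} (hg : g ≠ 0) {M : ℕ}
    (h : (p : ℤ) ^ M ∣ U ^ g - V ^ g) : (p : ℤ) ^ (M - Nat.log 2 g) ∣ U - V := by
  induction g using Nat.strong_induction_on generalizing M with
  | _ g ih =>
    have hpZ : Prime (p : ℤ) := Nat.prime_iff_prime_int.1 hp
    have hsum : ∀ (x y : ℤ), (p : ℤ) ^ 2 ∣ x - 1 → (p : ℤ) ^ 2 ∣ y - 1 → ∀ n : ℕ,
        (p : ℤ) ^ 2 ∣ (∑ i ∈ range n, x ^ i * y ^ (n - 1 - i)) - n := fun x y hx hy n => by
      rw [show ((n : ℤ)) = ∑ _i ∈ range n, (1 : ℤ) by simp, ← sum_sub_distrib]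
      refine dvd_sum fun i _ => ?_
      rw [show x ^ i * y ^ (n - 1 - i) - 1 =
        (x ^ i - 1) * y ^ (n - 1 - i) + (y ^ (n - 1 - i) - 1) by ring]
      exact dvd_add (dvd_mul_of_dvd_left (hx.trans (sub_one_dvd_pow_sub_one _ _)) _)
        (hy.trans (sub_one_dvd_pow_sub_one _ _))
    by_cases hdiv : p ∣ g
    · obtain ⟨g', rfl⟩ := hdiv
      have hg' : g' ≠ 0 := fun e => hg (by rw [e, mul_zero])
      rcases Nat.eq_zero_or_pos M with rfl | hM
      · simp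
      rw [mul_comm p g', pow_mul, pow_mul, ← geom_sum₂_mul] at h
      obtain ⟨k, hk⟩ := hsum (U ^ g') (V ^ g') (hU.trans (sub_one_dvd_pow_sub_one _ _))
        (hV.trans (sub_one_dvd_pow_sub_one _ _)) p
      rw [sub_eq_iff_eq_add] at hk
      rw [hk, show (p : ℤ) ^ 2 * k + p = p * (1 + p * k) by ring, mul_assoc,
        ← Nat.sub_add_cancel hM, pow_succ', mul_dvd_mul_iff_left hpZ.ne_zero, mul_comm] at h
      have hu : ¬ (p : ℤ) ∣ 1 + p * k := fun hh =>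
        hpZ.not_dvd_one (by simpa using dvd_sub hh (dvd_mul_right (p : ℤ) k))
      have h1 := ih g' (lt_mul_of_one_lt_left (Nat.pos_of_ne_zero hg') hp.one_lt) hg'
        (hpZ.pow_dvd_of_dvd_mul_right _ hu h)
      have hlog : Nat.log 2 g' + 1 ≤ Nat.log 2 (p * g') := by
        rw [← Nat.log_mul_base one_lt_two hg']
        exact Nat.log_mono_right (by rw [mul_comm g']; exact Nat.mul_le_mul_right _ hp.two_le)
      exact (pow_dvd_pow _ (by omega)).trans h1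
    · rw [← geom_sum₂_mul, mul_comm] at h
      refine (pow_dvd_pow _ (Nat.sub_le _ _)).trans
        (hpZ.pow_dvd_of_dvd_mul_right M (fun hh => ?_) h)
      have h1 := dvd_sub hh ((dvd_pow_self (p : ℤ) two_ne_zero).trans (hsum U V hU hV g))
      rw [sub_sub_cancel, Int.natCast_dvd_natCast] at h1
      exact hdiv h1

/-- **`p`-adic two logarithms.** -/
theorem padic_two_logarithms_bound {p : ℕ} (hp : p.Prime) {A B g₁ g₂ : ℕ} (hg₁ : 1 ≤ g₁)
    (hg₂ : 1 ≤ g₂) (hA : 2 ≤ A ∧ A ≤ 2 ^ g₁) (hB : 2 ≤ B ∧ B ≤ 2 ^ g₂)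
    (hA1 : (p : ℤ) ^ 2 ∣ (A : ℤ) - 1) (hB1 : (p : ℤ) ^ 2 ∣ (B : ℤ) - 1)
    (hind : ∀ u v : ℕ, A ^ u = B ^ v → u = 0 ∧ v = 0) {x y : ℕ} (hxy : x ≠ 0 ∨ y ≠ 0)
    {m : ℕ} (hm : 1 ≤ m) (hb : g₁ * x + g₂ * y ≤ 2 ^ m * (g₁ * g₂)) {M : ℕ}
    (hdvd : (p : ℤ) ^ M ∣ (A : ℤ) ^ x - (B : ℤ) ^ y) :
    M ≤ 2 * (256 ^ 4 * (g₁ * g₂) * m ^ 2) := by
  have hgpos : 0 < Nat.gcd x y := Nat.gcd_pos_iff.2 (hxy.imp Nat.pos_of_ne_zero Nat.pos_of_ne_zero)
  obtain ⟨b₁, b₂, hcop, e₁, e₂⟩ := Nat.exists_coprime x y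
  set g := Nat.gcd x y
  rw [e₁, e₂, pow_mul, pow_mul] at hdvd
  have hlift := pow_dvd_of_pow_sub_pow hp (hA1.trans (sub_one_dvd_pow_sub_one _ _))
    (hB1.trans (sub_one_dvd_pow_sub_one _ _)) hgpos.ne' hdvd
  have hb' : g₁ * b₁ + g₂ * b₂ ≤ 2 ^ m * (g₁ * g₂) := by
    refine le_trans (Nat.add_le_add (Nat.mul_le_mul_left _ ?_) (Nat.mul_le_mul_left _ ?_)) hb
    exacts [e₁ ▸ Nat.le_mul_of_pos_right _ hgpos, e₂ ▸ Nat.le_mul_of_pos_right _ hgpos]
  have hp1 : (p : ℤ) ∣ (A : ℤ) - 1 ∧ (p : ℤ) ∣ (B : ℤ) - 1 :=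
    ⟨(dvd_pow_self _ two_ne_zero).trans hA1, (dvd_pow_self _ two_ne_zero).trans hB1⟩
  have hmain : M - Nat.log 2 g ≤ 256 ^ 4 * (g₁ * g₂) * m ^ 2 := by
    by_cases hpb : p ∣ b₂
    · rw [mul_comm g₁ g₂]
      refine padic_bound_coprime hp hg₂ hg₁ hB hA hp1.2 hp1.1
        (fun u v e => (hind v u e.symm).symm) hcop.symm (fun h1 => ?_) hm
        (by rwa [add_comm, mul_comm g₂ g₁]) (dvd_sub_comm.1 hlift)
      exact hp.not_dvd_one (hcop ▸ Nat.dvd_gcd h1 hpb)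
    · exact padic_bound_coprime hp hg₁ hg₂ hA hB hp1.1 hp1.2 hind hcop hpb hm hb' hlift
  have hlog : Nat.log 2 g ≤ m + g₁ + g₂ := by
    refine (Nat.log_mono_right (le_trans ?_ hb)).trans
      (Nat.le_trans (Nat.log_mono_right (Nat.mul_le_mul_left _ (Nat.mul_le_mul
        (Nat.lt_two_pow_self (n := g₁)).le (Nat.lt_two_pow_self (n := g₂)).le))) ?_)
    · rcases hxy with h0 | h0
      · exact le_trans ((Nat.gcd_le_left _ (Nat.pos_of_ne_zero h0)).trans
          (Nat.le_mul_of_pos_left _ hg₁)) (Nat.le_add_right _ _)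
      · exact le_trans ((Nat.gcd_le_right _ (Nat.pos_of_ne_zero h0)).trans
          (Nat.le_mul_of_pos_left _ hg₂)) (Nat.le_add_left _ _)
    · rw [← pow_add, ← pow_add, Nat.log_pow one_lt_two, add_assoc]
  have hbig : m + g₁ + g₂ ≤ 256 ^ 4 * (g₁ * g₂) * m ^ 2 := by
    have a1 : g₁ ≤ g₁ * g₂ := Nat.le_mul_of_pos_right _ hg₂
    have a2 : g₂ ≤ g₁ * g₂ := Nat.le_mul_of_pos_left _ hg₁
    have a3 : m ≤ m ^ 2 := Nat.le_self_pow two_ne_zero m
    have a4 : g₁ * g₂ ≤ g₁ * g₂ * m ^ 2 := Nat.le_mul_of_pos_right _ (by positivity)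
    have a5 : m ^ 2 ≤ g₁ * g₂ * m ^ 2 := Nat.le_mul_of_pos_left _ (Nat.mul_pos hg₁ hg₂)
    rw [mul_assoc]
    omega
  omega

end FA.TwoLogarithms

end
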