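import Fermat.Agent.TwoLogarithms.Padic
import Fermat.Agent.TwoLogarithms.Applications
import Mathlib.FieldTheory.Finite.Basic

/-!
# The power of a prime in `a ^ x - b ^ y`, and `a ^ x + b ^ y = c ^ z`

For `a`, `b` prime to `p` and multiplicatively independent the exponent of `p` in `a ^ x - b ^ y`
is at most a multiple of `(log (x + y)) ^ 2`. With a prime divisor of each of three pairwise
coprime bases this bounds the exponents in `a ^ x + b ^ y = c ^ z`.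
-/

set_option autoImplicit false

namespace FA.TwoLogarithms

/-- The exponent of a prime in `a ^ x - b ^ y`. -/
theorem padic_pow_sub_pow_bound {p : ℕ} (hp : p.Prime) {a b : ℕ} (ha : 2 ≤ a) (hb : 2 ≤ b)
    (hpa : ¬ p ∣ a) (hpb : ¬ p ∣ b) (hind : ∀ u v : ℕ, a ^ u = b ^ v → u = 0 ∧ v = 0)
    {x y : ℕ} (hxy : x ≠ 0 ∨ y ≠ 0) {M : ℕ} (hdvd : (p : ℤ) ^ M ∣ (a : ℤ) ^ x - (b : ℤ) ^ y) :
    M ≤ 2 ^ 33 * p ^ 4 * (Nat.log 2 a + 1) * (Nat.log 2 b + 1) *
      (Nat.log 2 (x + y) + 1) ^ 2 := by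
  set n := p * (p - 1) with hn
  have hn0 : 0 < n := Nat.mul_pos hp.pos (Nat.sub_pos_of_lt hp.one_lt)
  have hnp : n ≤ p ^ 2 := by rw [hn, pow_two]; exact Nat.mul_le_mul_left _ (Nat.sub_le _ _)
  have hone : ∀ c : ℕ, ¬ p ∣ c → (p : ℤ) ^ 2 ∣ ((c ^ n : ℕ) : ℤ) - 1 := fun c hc => by
    have h := Nat.ModEq.pow_totient (((Nat.Prime.coprime_iff_not_dvd hp).2 hc).pow_left 2).symm
    rw [Nat.totient_prime_pow hp two_pos, show 2 - 1 = 1 from rfl, pow_one, ← hn] at h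
    have := h.symm.dvd
    push_cast at this ⊢
    exact this
  have hsize : ∀ c : ℕ, 2 ≤ c → 2 ≤ c ^ n ∧ c ^ n ≤ 2 ^ (p ^ 2 * (Nat.log 2 c + 1)) := fun c hc =>
    ⟨hc.trans (Nat.le_self_pow hn0.ne' c), by
      refine (Nat.pow_le_pow_left (Nat.lt_pow_succ_log_self one_lt_two c).le n).trans ?_
      rw [← pow_mul, mul_comm (p ^ 2)]
      exact Nat.pow_le_pow_right two_pos (Nat.mul_le_mul_left _ hnp)⟩
  have hg : ∀ c : ℕ, 1 ≤ p ^ 2 * (Nat.log 2 c + 1) := fun c =>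
    Nat.mul_pos (pow_pos hp.pos 2) (Nat.succ_pos _)
  set g₁ := p ^ 2 * (Nat.log 2 a + 1) with hg₁
  set g₂ := p ^ 2 * (Nat.log 2 b + 1) with hg₂
  set m := Nat.log 2 (x + y) + 1 with hm
  have hsum : g₁ * x + g₂ * y ≤ 2 ^ m * (g₁ * g₂) := by
    have h1 : g₁ ≤ g₁ * g₂ := Nat.le_mul_of_pos_right _ (hg b)
    have h2 : g₂ ≤ g₁ * g₂ := Nat.le_mul_of_pos_left _ (hg a)
    refine (Nat.add_le_add (Nat.mul_le_mul_right x h1) (Nat.mul_le_mul_right y h2)).trans ?_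
    rw [← mul_add, mul_comm (2 ^ m)]
    exact Nat.mul_le_mul_left _ (Nat.lt_pow_succ_log_self one_lt_two _).le
  have hdvd' : (p : ℤ) ^ M ∣ ((a ^ n : ℕ) : ℤ) ^ x - ((b ^ n : ℕ) : ℤ) ^ y := by
    push_cast
    rw [pow_right_comm (a : ℤ) n x, pow_right_comm (b : ℤ) n y]
    exact hdvd.trans (sub_dvd_pow_sub_pow _ _ n)
  refine (padic_two_logarithms_bound hp (hg a) (hg b) (hsize a ha) (hsize b hb) (hone a hpa)
    (hone b hpb) (fun u v e => ?_) hxy (m := m) (Nat.succ_pos _) hsum hdvd').trans_eq ?_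
  · rw [← pow_mul, ← pow_mul] at e
    obtain ⟨h1, h2⟩ := hind _ _ e
    exact ⟨(mul_eq_zero.1 h1).resolve_left hn0.ne', (mul_eq_zero.1 h2).resolve_left hn0.ne'⟩
  · ring

/-- Coprime numbers are multiplicatively independent. -/
theorem independent_of_coprime {a b : ℕ} (ha : 2 ≤ a) (hb : 2 ≤ b) (h : a.Coprime b) (u v : ℕ)
    (he : a ^ u = b ^ v) : u = 0 ∧ v = 0 := by
  have h1 : a ^ u = 1 := (Nat.coprime_self _).1 (by
    nth_rw 2 [he]
    exact Nat.Coprime.pow u v h)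
  have h2 : b ^ v = 1 := he ▸ h1
  exact ⟨(Nat.pow_eq_one.1 h1).resolve_left (by omega),
    (Nat.pow_eq_one.1 h2).resolve_left (by omega)⟩

/-- The bound for `x + y + z` in `a ^ x + b ^ y = c ^ z`. -/
def threePowerBound (a b c : ℕ) : ℕ :=
  64 * (3 * 2 ^ 35 * (max a (max b c)) ^ 4 * (Nat.log 2 (max a (max b c)) + 1) ^ 2) ^ 2

/-- **The exponents in `a ^ x + b ^ y = c ^ z`.** -/
theorem three_power_bound {a b c : ℕ} (ha : 2 ≤ a) (hb : 2 ≤ b) (hc : 2 ≤ c)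
    (hab : a.Coprime b) (hbc : b.Coprime c) (hac : a.Coprime c) {x y z : ℕ}
    (h : a ^ x + b ^ y = c ^ z) : x + y + z ≤ threePowerBound a b c := by
  set G := max a (max b c) with hG
  set W := x + y + z with hW
  have hW0 : W ≠ 0 := fun h0 => by
    have hx : x = 0 := by omega
    have hy : y = 0 := by omega
    have hz : z = 0 := by omega
    simp [hx, hy, hz] at h
  set n := Nat.log 2 W + 1 with hn
  set T := 2 ^ 35 * G ^ 4 * (Nat.log 2 G + 1) ^ 2 with hT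
  have hG2 : 2 ≤ G := ha.trans (le_max_left _ _)
  have bound : ∀ {p s t i j M : ℕ}, p.Prime → p ≤ G → 2 ≤ s → 2 ≤ t → s ≤ G → t ≤ G →
      ¬ p ∣ s → ¬ p ∣ t → s.Coprime t → (i ≠ 0 ∨ j ≠ 0) → i + j ≤ 2 * W →
      (p : ℤ) ^ M ∣ (s : ℤ) ^ i - (t : ℤ) ^ j → M ≤ T * n ^ 2 := by
    intro p s t i j M hp hpG hs ht hsG htG hps hpt hst hij hle hd
    refine (padic_pow_sub_pow_bound hp hs ht hps hpt (independent_of_coprime hs ht hst) hij
      hd).trans ?_
    have h1 : Nat.log 2 (i + j) + 1 ≤ 2 * n := by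
      have := (Nat.log_mono_right (b := 2) hle).trans_eq
        (show Nat.log 2 (2 * W) = Nat.log 2 W + 1 by
          rw [mul_comm]; exact Nat.log_mul_base one_lt_two hW0)
      omega
    calc 2 ^ 33 * p ^ 4 * (Nat.log 2 s + 1) * (Nat.log 2 t + 1) * (Nat.log 2 (i + j) + 1) ^ 2
        ≤ 2 ^ 33 * G ^ 4 * (Nat.log 2 G + 1) * (Nat.log 2 G + 1) * (2 * n) ^ 2 :=
          Nat.mul_le_mul (Nat.mul_le_mul (Nat.mul_le_mul (Nat.mul_le_mul_left _
            (Nat.pow_le_pow_left hpG 4)) (Nat.succ_le_succ (Nat.log_mono_right hsG)))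
            (Nat.succ_le_succ (Nat.log_mono_right htG))) (Nat.pow_le_pow_left h1 2)
      _ = T * n ^ 2 := by rw [hT]; ring
  have hT1 : 1 ≤ T * n ^ 2 := Nat.mul_pos
    (Nat.mul_pos (Nat.mul_pos (by norm_num) (pow_pos (by omega) 4)) (pow_pos (Nat.succ_pos _) 2))
    (pow_pos (Nat.succ_pos _) 2)
  have hdiv : ∀ {d e : ℕ}, d.Coprime e → 2 ≤ d → ¬ d.minFac ∣ e := fun {d e} hde hd he =>
    (Nat.minFac_prime (by omega : d ≠ 1)).not_dvd_one
      (hde ▸ Nat.dvd_gcd (Nat.minFac_dvd d) he)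
  have hmin : ∀ {d : ℕ} (k : ℕ), ((d.minFac : ℕ) : ℤ) ^ k ∣ (d : ℤ) ^ k := fun {d} k =>
    pow_dvd_pow_of_dvd (Int.natCast_dvd_natCast.2 (Nat.minFac_dvd d)) k
  have hZ : (a : ℤ) ^ x + (b : ℤ) ^ y = (c : ℤ) ^ z := by exact_mod_cast h
  have haG : a ≤ G := le_max_left _ _
  have hbG : b ≤ G := (le_max_left _ _).trans (le_max_right _ _)
  have hcG : c ≤ G := (le_max_right _ _).trans (le_max_right _ _)
  have hpos : ∀ {d : ℕ} (k : ℕ), 2 ≤ d → 0 < d ^ k := fun k hd => pow_pos (by omega) k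
  have hx : x ≤ T * n ^ 2 := by
    by_cases h0 : y = 0 ∧ z = 0
    · have := hpos x ha
      rw [h0.1, h0.2, pow_zero, pow_zero] at h
      omega
    refine bound (p := a.minFac) (s := c) (t := b) (i := z) (j := y)
      (Nat.minFac_prime (by omega)) ((Nat.minFac_le (by omega)).trans haG) hc hb hcG hbG
      (hdiv hac ha) (hdiv hab ha) hbc.symm (by omega) (by omega) ?_
    exact (hmin x).trans (dvd_of_eq (by linear_combination hZ))
  have hy : y ≤ T * n ^ 2 := by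
    by_cases h0 : x = 0 ∧ z = 0
    · have := hpos y hb
      rw [h0.1, h0.2, pow_zero, pow_zero] at h
      omega
    refine bound (p := b.minFac) (s := c) (t := a) (i := z) (j := x)
      (Nat.minFac_prime (by omega)) ((Nat.minFac_le (by omega)).trans hbG) hc ha hcG haG
      (hdiv hbc hb) (hdiv hab.symm hb) hac.symm (by omega) (by omega) ?_
    exact (hmin y).trans (dvd_of_eq (by linear_combination hZ))
  have hz : z ≤ T * n ^ 2 := by
    by_cases h0 : x = 0 ∧ y = 0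
    · rw [h0.1, h0.2, pow_zero, pow_zero] at h
      have h1 : 2 ^ z ≤ 2 ^ 1 := (Nat.pow_le_pow_left hc z).trans_eq (by rw [pow_one]; omega)
      exact ((Nat.pow_le_pow_iff_right one_lt_two).1 h1).trans hT1
    refine bound (p := c.minFac) (s := a) (t := b) (i := 2 * x) (j := 2 * y)
      (Nat.minFac_prime (by omega)) ((Nat.minFac_le (by omega)).trans hcG) ha hb haG hbG
      (hdiv hac.symm hc) (hdiv hbc.symm hc) hab (by omega) (by omega) ?_
    refine (hmin z).trans ⟨(a : ℤ) ^ x - (b : ℤ) ^ y, ?_⟩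
    rw [← hZ]
    ring
  refine (le_of_le_add_mul_log_sq (u := 0) (D := 3 * T) hW0 ?_).trans_eq ?_
  · rw [← hn, Nat.zero_add, mul_assoc 3]
    omega
  · rw [threePowerBound, ← hG, hT]
    ring

/-- **Finiteness with a computable box.** -/
theorem three_power_finite_set {a b c : ℕ} (ha : 2 ≤ a) (hb : 2 ≤ b) (hc : 2 ≤ c)
    (hab : a.Coprime b) (hbc : b.Coprime c) (hac : a.Coprime c) :
    {t : ℕ × ℕ × ℕ | a ^ t.1 + b ^ t.2.1 = c ^ t.2.2}.Finite := by
  set B := threePowerBound a b c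
  refine ((Set.finite_Iic B).prod ((Set.finite_Iic B).prod (Set.finite_Iic B))).subset
    fun t ht => ?_
  have h := three_power_bound ha hb hc hab hbc hac ht
  exact ⟨Set.mem_Iic.2 (by omega), Set.mem_Iic.2 (by omega), Set.mem_Iic.2 (by omega)⟩

end FA.TwoLogarithms
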