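import Fermat.Agent.TwoLogarithms.Interpolation
import Mathlib.Data.Nat.Choose.Vandermonde
import Mathlib.Algebra.BigOperators.NatAntidiagonal

/-!
# The `p`-adic interpolation determinant

`binom (z, k) (1 + x) ^ z` with `p ∣ x` is, modulo `p ^ N`, a combination of the `binom (z, q)`
in which the coefficient of `binom (z, q)` is divisible by `p ^ (q - k)`. So a determinant in `N`
such functions is divisible by `p ^ (N (N - 1) / 2 - N K)`.
-/

set_option autoImplicit false

namespace FA.TwoLogarithms

open Finset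

/-- The product of two binomial coefficients in the binomial basis. -/
theorem choose_mul_choose_expansion (z n k : ℕ) :
    z.choose n * z.choose k =
      ∑ i ∈ range (k + 1), n.choose (k - i) * (n + i).choose n * z.choose (n + i) := by
  rcases lt_or_ge z n with h | h
  · rw [Nat.choose_eq_zero_of_lt h, zero_mul]
    exact (sum_eq_zero fun i _ => by
      rw [Nat.choose_eq_zero_of_lt (show z < n + i by omega), mul_zero]).symm
  obtain ⟨w, rfl⟩ : ∃ w, z = w + n := ⟨z - n, by omega⟩
  rw [Nat.add_choose_eq w n k, Finset.Nat.sum_antidiagonal_eq_sum_range_succ_mk, mul_sum]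
  refine sum_congr rfl fun i _ => ?_
  have h1 := Nat.choose_mul (n := w + n) (k := n + i) (s := n) (Nat.le_add_right n i)
  rw [Nat.add_sub_cancel, Nat.add_sub_cancel_left] at h1
  calc (w + n).choose n * (w.choose i * n.choose (k - i))
      = n.choose (k - i) * ((w + n).choose n * w.choose i) := by ring
    _ = _ := by rw [← h1]; ring

/-- A column in the binomial basis. -/
theorem exists_column_expansion (p x : ℤ) (hx : p ∣ x) (N : ℕ) {k K : ℕ} (hk : k ≤ K) :
    ∃ c : ℕ → ℤ, (∀ q, p ^ (q - K) ∣ c q) ∧ ∀ z : ℕ, ∃ E : ℤ,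
      (z.choose k : ℤ) * (1 + x) ^ z =
        ∑ q ∈ range (N + K + 1), c q * (z.choose q : ℤ) + p ^ N * E := by
  refine ⟨fun q => ∑ ni ∈ (range N ×ˢ range (k + 1)).filter fun ni => ni.1 + ni.2 = q,
    x ^ ni.1 * ((ni.1.choose (k - ni.2) * (ni.1 + ni.2).choose ni.1 : ℕ) : ℤ),
    fun q => dvd_sum fun ni hni => ?_, fun z => ?_⟩
  · rw [mem_filter, mem_product, mem_range, mem_range] at hni
    exact dvd_mul_of_dvd_left
      ((pow_dvd_pow p (show q - K ≤ ni.1 by omega)).trans (pow_dvd_pow_of_dvd hx _)) _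
  obtain ⟨E, hE⟩ : p ^ N ∣ ∑ n ∈ Ico N (N + z + 1), x ^ n * (z.choose n : ℤ) :=
    dvd_sum fun n hn => dvd_mul_of_dvd_left
      ((pow_dvd_pow p (mem_Ico.1 hn).1).trans (pow_dvd_pow_of_dvd hx n)) _
  refine ⟨(z.choose k : ℤ) * E, ?_⟩
  have hpow : (1 + x) ^ z = ∑ n ∈ range (N + z + 1), x ^ n * (z.choose n : ℤ) := by
    rw [add_comm 1 x, add_pow]
    simp only [one_pow, mul_one]
    refine sum_subset (range_subset_range.2 (by omega)) fun n _ hn => ?_
    rw [Nat.choose_eq_zero_of_lt (by rw [mem_range] at hn; omega), Nat.cast_zero, mul_zero]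
  rw [hpow, ← sum_range_add_sum_Ico _ (show N ≤ N + z + 1 by omega), hE, mul_add, mul_sum]
  refine congrArg₂ (· + ·) ?_ (by ring)
  calc ∑ n ∈ range N, (z.choose k : ℤ) * (x ^ n * (z.choose n : ℤ))
      = ∑ ni ∈ range N ×ˢ range (k + 1), x ^ ni.1 *
          ((ni.1.choose (k - ni.2) * (ni.1 + ni.2).choose ni.1 : ℕ) : ℤ) *
            (z.choose (ni.1 + ni.2) : ℤ) := by
        rw [sum_product]
        refine sum_congr rfl fun n _ => ?_
        have h := congrArg (fun u : ℕ => (u : ℤ)) (choose_mul_choose_expansion z n k)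
        push_cast at h ⊢
        calc (z.choose k : ℤ) * (x ^ n * (z.choose n : ℤ))
            = x ^ n * ((z.choose n : ℤ) * (z.choose k : ℤ)) := by ring
          _ = _ := by
            rw [h, mul_sum]
            exact sum_congr rfl fun i _ => by ring
    _ = ∑ q ∈ range (N + K + 1), ∑ ni ∈ (range N ×ˢ range (k + 1)).filter
          fun ni => ni.1 + ni.2 = q, x ^ ni.1 *
            ((ni.1.choose (k - ni.2) * (ni.1 + ni.2).choose ni.1 : ℕ) : ℤ) *
              (z.choose (ni.1 + ni.2) : ℤ) := by
        refine (sum_fiberwise_of_maps_to (fun ni hni => ?_) _).symm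
        simp only [mem_product, mem_range] at hni ⊢
        omega
    _ = _ := sum_congr rfl fun q _ => by
        rw [sum_mul]
        exact sum_congr rfl fun ni hni => by rw [(mem_filter.1 hni).2]

/-- **The divisibility of an interpolation determinant.** -/
theorem pow_dvd_det {N Q : ℕ} (p : ℤ) (K : ℕ) (f : ℕ → Fin N → ℤ) (c : Fin N → ℕ → ℤ)
    (E : Fin N → Fin N → ℤ) (hc : ∀ j q, p ^ (q - K) ∣ c j q) :
    p ^ (N.choose 2 - N * K) ∣
      (Matrix.of fun j a => ∑ q ∈ range Q, c j q * f q a + p ^ N * E j a).det := by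
  classical
  let s : Fin N → Fin (Q + 1) → ℤ := fun j q => if q.val < Q then c j q.val else p ^ N
  let vec : Fin N → Fin (Q + 1) → Fin N → ℤ := fun j q => if q.val < Q then f q.val else E j
  have hrow : (fun j a => ∑ q ∈ range Q, c j q * f q a + p ^ N * E j a) =
      fun j => ∑ q, s j q • vec j q := by
    funext j a
    simp only [s, vec, Finset.sum_apply, Pi.smul_apply, smul_eq_mul, Fin.sum_univ_castSucc,
      Fin.val_castSucc, Fin.is_lt, if_true, Fin.val_last, lt_irrefl, if_false,
      ← Fin.sum_univ_eq_sum_range (fun q => c j q * f q a)]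
  show p ^ _ ∣ Matrix.detRowAlternating (fun j a => ∑ q ∈ range Q, c j q * f q a + p ^ N * E j a)
  rw [hrow]
  have h :=
    (Matrix.detRowAlternating : (Fin N → ℤ) [⋀^Fin N]→ₗ[ℤ] ℤ).toMultilinearMap.map_sum
      (fun j q => s j q • vec j q)
  refine h.symm ▸ dvd_sum fun r _ => ?_
  rw [AlternatingMap.coe_multilinearMap, AlternatingMap.map_smul_univ, smul_eq_mul]
  set J := univ.filter fun j => (r j).val < Q with hJ
  by_cases hinj : Set.InjOn (fun j => (r j).val) J
  · refine dvd_mul_of_dvd_left ?_ _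
    let ex : Fin N → ℕ := fun j => if (r j).val < Q then (r j).val - K else N
    refine (pow_dvd_pow p (?_ : _ ≤ ∑ j, ex j)).trans ?_
    · have h1 := card_choose_two_le_sum J (fun j => (r j).val) hinj
      have h2 : ∑ j ∈ J, (r j).val + Jᶜ.card * N ≤ ∑ j, ex j + N * K := by
        rw [← sum_add_sum_compl J ex, show Jᶜ.card * N = ∑ _j ∈ Jᶜ, N by simp]
        have a1 : ∑ j ∈ J, (r j).val ≤ ∑ j ∈ J, ex j + J.card * K := by
          rw [show J.card * K = ∑ _j ∈ J, K by simp, ← sum_add_distrib]
          refine sum_le_sum fun j hj => ?_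
          rw [hJ, mem_filter] at hj
          simp only [ex, if_pos hj.2]
          omega
        have a2 : ∑ _j ∈ Jᶜ, N ≤ ∑ j ∈ Jᶜ, ex j := sum_le_sum fun j hj => by
          rw [mem_compl, hJ, mem_filter] at hj
          simp only [mem_univ, true_and] at hj
          simp [ex, hj]
        have a3 : J.card * K ≤ N * K :=
          Nat.mul_le_mul_right _ ((card_le_univ J).trans_eq (Fintype.card_fin N))
        omega
      have hcard : J.card + Jᶜ.card = N := (card_add_card_compl J).trans (Fintype.card_fin N)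
      have h3 := mul_pred_add_le J.card Jᶜ.card
      rw [hcard, Nat.mul_comm N Jᶜ.card] at h3
      rw [Nat.choose_two_right] at h1 ⊢
      omega
    · rw [← prod_pow_eq_pow_sum]
      refine prod_dvd_prod_of_dvd _ _ fun j _ => ?_
      simp only [ex, s]
      split_ifs
      exacts [hc j _, dvd_rfl]
  · simp only [Set.InjOn, not_forall] at hinj
    obtain ⟨j, hj, j', hj', he, hne⟩ := hinj
    simp only [hJ, coe_filter, mem_univ, true_and, Set.mem_ofPred_eq] at hj hj'
    have hv : vec j (r j) = vec j' (r j') := by simp [vec, hj', he]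
    rw [AlternatingMap.map_eq_zero_of_eq _ _ hv hne, mul_zero]
    exact dvd_zero _

end FA.TwoLogarithms
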