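import Fermat.Agent.TwoLogarithms.Applications
import Fermat.Agent.Root.SummaryThue
import Mathlib.Analysis.SpecialFunctions.Pow.Real
import Mathlib.NumberTheory.Real.Irrational

/-!
# The exponent in `a x ^ n - b y ^ n = c`

`n log (x / y) - log (b / a)` is at most about `|c| / max (x, y) ^ n`. The bound for two logarithms
is linear in `log max (x, y)`, which cancels, so `n` is at most a multiple of `(log n) ^ 2`. If
`b / a` and `x / y` are dependent, `x / y` is a power `g ^ q` and the form is a multiple of `log g`.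
-/

set_option autoImplicit false

noncomputable section

namespace FA.TwoLogarithms

/-- A rational power of `x / y` other than one is not near one. -/
theorem lower_of_dependent {p₁ q₁ p₂ q₂ : ℕ} (hp₁ : 0 < p₁) (hq₁ : 0 < q₁) (hp₂ : 0 < p₂)
    (hq₂ : 0 < q₂) (hne₁ : p₁ ≠ q₁) {u v : ℤ} (hv : v ≠ 0)
    (he : u * Real.log ((p₁ : ℝ) / q₁) + v * Real.log ((p₂ : ℝ) / q₂) = 0) {b₁ b₂ : ℤ}
    (hne : b₁ * Real.log ((p₁ : ℝ) / q₁) - b₂ * Real.log ((p₂ : ℝ) / q₂) ≠ 0) :
    1 / (max p₁ q₁ : ℕ) ≤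
      |b₁ * Real.log ((p₁ : ℝ) / q₁) - b₂ * Real.log ((p₂ : ℝ) / q₂)| := by
  set l₁ := Real.log ((p₁ : ℝ) / q₁) with hl₁
  set l₂ := Real.log ((p₂ : ℝ) / q₂) with hl₂
  -- reduce the relation to `q l₂ = p l₁`
  set r : ℚ := -(u : ℚ) / v with hr
  have hrel : (r.den : ℝ) * l₂ = (r.num : ℝ) * l₁ := by
    have h1 : (r : ℝ) * r.den = r.num := by exact_mod_cast Rat.mul_den_eq_num r
    have h2 : l₂ = (r : ℝ) * l₁ := by
      have hv' : (v : ℝ) ≠ 0 := Int.cast_ne_zero.2 hv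
      rw [hr]
      push_cast
      field_simp
      linarith
    rw [h2, ← h1]
    ring
  set q := r.den with hq
  have hq0 : 0 < q := r.den_pos
  obtain ⟨s, t, hst⟩ : IsCoprime r.num (q : ℤ) := Int.isCoprime_iff_gcd_eq_one.2 r.reduced
  -- `g = α₂ ^ s α₁ ^ t`
  set g : ℚ := ((p₂ : ℚ) / q₂) ^ s * ((p₁ : ℚ) / q₁) ^ t with hg
  have hg0 : (0 : ℝ) < (g : ℝ) := by
    rw [hg]
    push_cast
    positivity
  have hlg : Real.log (g : ℝ) * q = l₁ := by
    rw [hg]
    push_cast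
    rw [Real.log_mul (zpow_ne_zero _ (by positivity)) (zpow_ne_zero _ (by positivity)),
      Real.log_zpow, Real.log_zpow, ← hl₁, ← hl₂]
    have h1 : (s : ℝ) * r.num + t * q = 1 := by exact_mod_cast hst
    linear_combination (s : ℝ) * hrel + l₁ * h1
  have hpow : g ^ q = (p₁ : ℚ) / q₁ := by
    have h1 : ((g : ℝ)) ^ q = (p₁ : ℝ) / q₁ := by
      refine Real.log_injOn_pos (Set.mem_Ioi.2 (by positivity)) (Set.mem_Ioi.2 (by positivity)) ?_
      rw [Real.log_pow, ← hl₁, mul_comm, hlg]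
    have h2 : (((g ^ q : ℚ)) : ℝ) = (((p₁ : ℚ) / q₁ : ℚ) : ℝ) := by push_cast; exact h1
    exact_mod_cast h2
  have hg1 : g ≠ 1 := fun h => hne₁ (by
    rw [h, one_pow, eq_comm, div_eq_one_iff_eq (Nat.cast_ne_zero.2 hq₁.ne')] at hpow
    exact_mod_cast hpow)
  have hgpos : 0 < g := by exact_mod_cast hg0
  have hnum : 0 < g.num := Rat.num_pos.2 hgpos
  have hbnd : g.num.natAbs ≤ p₁ ∧ g.den ≤ q₁ := by
    have e1 := Rat.num_pow g q
    have e2 := Rat.den_pow g q
    rw [hpow] at e1 e2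
    refine ⟨?_, ?_⟩
    · have h3 : ((p₁ : ℚ) / q₁).num ∣ (p₁ : ℤ) := by
        have := Rat.num_dvd (p₁ : ℤ) (b := (q₁ : ℤ)) (Nat.cast_ne_zero.2 hq₁.ne')
        rwa [Rat.divInt_eq_div, Int.cast_natCast, Int.cast_natCast] at this
      rw [e1] at h3
      have h4 := Nat.le_of_dvd hp₁ (Int.natCast_dvd_natCast.1
        (Int.natAbs_dvd.2 (by exact_mod_cast h3)))
      rw [Int.natAbs_pow] at h4
      exact (Nat.le_self_pow hq0.ne' _).trans h4
    · have h3 : (((p₁ : ℚ) / q₁).den : ℤ) ∣ (q₁ : ℤ) := by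
        have := Rat.den_dvd (p₁ : ℤ) (q₁ : ℤ)
        rwa [Rat.divInt_eq_div, Int.cast_natCast, Int.cast_natCast] at this
      rw [e2] at h3
      exact (Nat.le_self_pow hq0.ne' _).trans (Nat.le_of_dvd hq₁ (Int.natCast_dvd_natCast.1 h3))
  -- the form is a multiple of `log g`
  set k : ℤ := b₁ * q - b₂ * r.num with hk
  have hform : (b₁ : ℝ) * l₁ - b₂ * l₂ = (k : ℝ) * Real.log (g : ℝ) := by
    have h1 : l₂ = (r.num : ℝ) * Real.log (g : ℝ) := by
      rw [← hlg] at hrel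
      field_simp at hrel ⊢
      linarith [hrel]
    rw [h1, ← hlg, hk]
    push_cast
    ring
  rw [hform] at hne ⊢
  rw [abs_mul]
  have hk1 : (1 : ℝ) ≤ |(k : ℝ)| := by
    exact_mod_cast Int.one_le_abs fun h0 => hne (by simp [h0])
  refine le_trans ?_ (le_mul_of_one_le_left (abs_nonneg _) hk1)
  set A := g.num.natAbs
  have hA : (g : ℝ) = (A : ℝ) / g.den := by
    rw [Rat.cast_def]
    congr 1
    rw [Nat.cast_natAbs, abs_of_pos hnum]
  have hA0 : 0 < A := Int.natAbs_pos.2 hnum.ne'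
  have hne' : A ≠ g.den := fun e => hg1 (by
    have h1 : (g : ℝ) = 1 := by
      rw [hA, e, div_self (Nat.cast_ne_zero.2 g.den_ne_zero)]
    exact_mod_cast h1)
  have key : ∀ X Y : ℕ, 0 < Y → Y < X → X ≤ max p₁ q₁ →
      1 / ((max p₁ q₁ : ℕ) : ℝ) ≤ Real.log ((X : ℝ) / Y) := fun X Y hY hXY hX => by
    have hX0 : 0 < X := hY.trans hXY
    refine le_trans ?_ (Real.one_sub_inv_le_log_of_pos (by positivity))
    rw [inv_div, one_sub_div (Nat.cast_ne_zero.2 hX0.ne')]
    refine div_le_div₀ ?_ ?_ (Nat.cast_pos.2 hX0) (by exact_mod_cast hX)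
    · exact sub_nonneg.2 (by exact_mod_cast hXY.le)
    · rw [le_sub_iff_add_le, add_comm]
      exact_mod_cast hXY
  rw [hA]
  rcases lt_or_gt_of_ne hne' with h | h
  · rw [abs_of_nonpos (Real.log_nonpos (by positivity) ((div_le_one (Nat.cast_pos.2 g.den_pos)).2
      (by exact_mod_cast h.le))), ← Real.log_inv, inv_div]
    exact key _ _ hA0 h (hbnd.2.trans (le_max_right _ _))
  · exact le_trans (key _ _ g.den_pos h (hbnd.1.trans (le_max_left _ _))) (le_abs_self _)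

/-- The bound for the exponent. -/
def binomialBound (a b c : ℕ) : ℕ :=
  2 * (Nat.log 2 c + 3) + 64 * (6 * 256 ^ 4 * (Nat.log 2 (max a b) + 1)) ^ 2

theorem tijdeman_bound {a b x y n : ℕ} (ha : 0 < a) (hb : 0 < b) (hx : 0 < x) (hy : 0 < y)
    (hxy : 2 ≤ max x y) {c : ℤ} (hc : c ≠ 0) (he : (a : ℤ) * x ^ n - (b : ℤ) * y ^ n = c) :
    n ≤ binomialBound a b c.natAbs := by
  rcases Nat.eq_zero_or_pos n with rfl | hn
  · exact Nat.zero_le _
  set u := Nat.log 2 c.natAbs + 3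
  have hu : 4 * c.natAbs ≤ 2 ^ u := by
    calc 4 * c.natAbs ≤ 4 * 2 ^ (Nat.log 2 c.natAbs + 1) :=
          Nat.mul_le_mul_left _ (Nat.lt_pow_succ_log_self one_lt_two _).le
      _ = 2 ^ u := by simp only [u]; ring
  have hfin : n ≤ u → n ≤ binomialBound a b c.natAbs := fun h => by
    simp only [binomialBound]; omega
  set Y := max x y with hY
  rcases eq_or_ne x y with rfl | hne
  · refine hfin ((Nat.pow_le_pow_iff_right one_lt_two).1 ?_)
    have h1 : ((a : ℤ) - b).natAbs * x ^ n = c.natAbs := by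
      rw [← he, ← sub_mul, Int.natAbs_mul, Int.natAbs_pow, Int.natAbs_natCast]
    have h2 : 0 < ((a : ℤ) - b).natAbs := by
      rw [Int.natAbs_pos]; intro h0; exact hc (by rw [← he, ← sub_mul, h0, zero_mul])
    calc 2 ^ n ≤ x ^ n := Nat.pow_le_pow_left (by omega) n
      _ ≤ ((a : ℤ) - b).natAbs * x ^ n := Nat.le_mul_of_pos_left _ h2
      _ ≤ 2 ^ u := by omega
  have hX : (0 : ℝ) < (a : ℝ) * x ^ n := by positivity
  have hZ : (0 : ℝ) < (b : ℝ) * y ^ n := by positivity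
  have hlog : Real.log ((a : ℝ) * x ^ n) - Real.log ((b : ℝ) * y ^ n) =
      ((n : ℤ) : ℝ) * Real.log ((x : ℝ) / y) - ((1 : ℤ) : ℝ) * Real.log ((b : ℝ) / a) := by
    rw [Real.log_mul (by positivity) (by positivity), Real.log_mul (by positivity) (by positivity),
      Real.log_pow, Real.log_pow, Real.log_div (by positivity) (by positivity),
      Real.log_div (by positivity) (by positivity)]
    push_cast
    ring
  have habs : |(a : ℝ) * x ^ n - b * y ^ n| = (c.natAbs : ℝ) := by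
    rw [Nat.cast_natAbs, Int.cast_abs, ← he]; push_cast; rfl
  have hT : ((Y ^ n : ℕ) : ℝ) ≤ max ((a : ℝ) * x ^ n) ((b : ℝ) * y ^ n) := by
    rcases max_cases x y with ⟨e, -⟩ | ⟨e, -⟩ <;> rw [hY, e] <;> push_cast
    · exact (le_mul_of_one_le_left (by positivity) (by exact_mod_cast ha)).trans (le_max_left _ _)
    · exact (le_mul_of_one_le_left (by positivity) (by exact_mod_cast hb)).trans (le_max_right _ _)
  have hmain : ∀ δ : ℕ, 0 < δ → 1 / (δ : ℝ) ≤ |((n : ℤ) : ℝ) * Real.log ((x : ℝ) / y) -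
      ((1 : ℤ) : ℝ) * Real.log ((b : ℝ) / a)| → Y ^ n ≤ 2 * c.natAbs * δ := fun δ hδ h => by
    have h1 := max_mul_le_abs_sub hX hZ (by positivity) (by
      rw [div_le_one (Nat.cast_pos.2 hδ)]; exact_mod_cast hδ) (hlog ▸ h)
    rw [habs] at h1
    have h2 := (mul_le_mul_of_nonneg_right hT (by positivity)).trans h1
    rw [div_div, mul_one_div, div_le_iff₀ (by positivity)] at h2
    have h3 : ((Y ^ n : ℕ) : ℝ) ≤ ((2 * c.natAbs * δ : ℕ) : ℝ) := by push_cast at h2 ⊢; linarith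
    exact_mod_cast h3
  have hΛ : ((n : ℤ) : ℝ) * Real.log ((x : ℝ) / y) -
      ((1 : ℤ) : ℝ) * Real.log ((b : ℝ) / a) ≠ 0 := fun h0 => by
    rw [← hlog, sub_eq_zero] at h0
    have h1 := Real.log_injOn_pos (Set.mem_Ioi.2 hX) (Set.mem_Ioi.2 hZ) h0
    refine hc ?_
    rw [← he, sub_eq_zero]
    exact_mod_cast h1
  by_cases hind : ∀ u v : ℤ, u * Real.log ((x : ℝ) / y) + v * Real.log ((b : ℝ) / a) = 0 →
      u = 0 ∧ v = 0
  · set g₁ := Nat.log 2 Y + 1
    set g₂ := Nat.log 2 (max a b) + 1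
    set m := Nat.log 2 n + 1
    have hg1 : 2 ≤ g₁ := by have := Nat.log_pos one_lt_two hxy; omega
    have hY2 := Nat.lt_pow_succ_log_self one_lt_two Y
    have hab := Nat.lt_pow_succ_log_self one_lt_two (max a b)
    have hm : n + 1 ≤ 2 ^ m := Nat.lt_pow_succ_log_self one_lt_two n
    have hlow := two_logarithms_sharp_bound hx hy hb ha (g₁ := g₁) (g₂ := g₂) (by omega) (by omega)
      ⟨le_trans (le_max_left _ _) hY2.le, le_trans (le_max_right _ _) hY2.le⟩
      ⟨le_trans (le_max_right _ _) hab.le, le_trans (le_max_left _ _) hab.le⟩ hind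
      (b₁ := (n : ℤ)) (b₂ := 1) (Or.inr one_ne_zero) (m := m) (Nat.succ_pos _) (by
        rw [Int.natAbs_natCast, Int.natAbs_one, mul_one]
        calc g₁ * n + g₂ ≤ g₁ * g₂ * n + g₁ * g₂ := Nat.add_le_add
              (Nat.mul_le_mul_right _ (Nat.le_mul_of_pos_right _ (Nat.succ_pos _)))
              (Nat.le_mul_of_pos_left _ (by omega))
          _ = (n + 1) * (g₁ * g₂) := by ring
          _ ≤ 2 ^ m * (g₁ * g₂) := Nat.mul_le_mul_right _ hm)
    set W := 3 * 256 ^ 4 * g₂ * m ^ 2 with hW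
    have h1 := hmain (2 ^ (W * g₁)) (pow_pos two_pos _) (by
      push_cast
      rw [show W * g₁ = 3 * (256 ^ 4 * (g₁ * g₂) * m ^ 2) by rw [hW]; ring]
      push_cast at hlow
      exact hlow)
    have h2 : (g₁ - 1) * n ≤ u + W * g₁ := by
      refine (Nat.pow_le_pow_iff_right one_lt_two).1 (le_trans ?_ (le_trans h1 ?_))
      · rw [pow_mul]
        exact Nat.pow_le_pow_left (Nat.pow_log_le_self 2 (by omega)) n
      · rw [pow_add]
        exact Nat.mul_le_mul_right _ (le_trans (by omega) hu)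
    have h3 : n ≤ u + 6 * 256 ^ 4 * g₂ * m ^ 2 := by
      refine Nat.le_of_mul_le_mul_left (h2.trans ?_) (show 0 < g₁ - 1 by omega)
      calc u + W * g₁ ≤ (g₁ - 1) * u + W * (2 * (g₁ - 1)) := Nat.add_le_add
            (Nat.le_mul_of_pos_left _ (by omega)) (Nat.mul_le_mul_left _ (by omega))
        _ = (g₁ - 1) * (u + 6 * 256 ^ 4 * g₂ * m ^ 2) := by rw [hW]; ring
    exact le_of_le_add_mul_log_sq hn.ne' h3
  · simp only [not_forall] at hind
    obtain ⟨p, q, hrel, hpq⟩ := hind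
    have hq : q ≠ 0 := fun h0 => by
      rw [h0, Int.cast_zero, zero_mul, add_zero, mul_eq_zero] at hrel
      refine hpq ⟨?_, h0⟩
      rcases hrel with h | h
      · exact_mod_cast h
      · exfalso
        refine hne ?_
        have h1 := Real.eq_one_of_pos_of_log_eq_zero (by positivity) h
        rw [div_eq_one_iff_eq (by positivity)] at h1
        exact_mod_cast h1
    have h1 := hmain Y (by omega) (lower_of_dependent hx hy hb ha hne hq hrel hΛ)
    obtain ⟨k, rfl⟩ : ∃ k, n = k + 1 := ⟨n - 1, by omega⟩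
    rw [pow_succ] at h1
    have h2 : Y ^ k ≤ 2 * c.natAbs := Nat.le_of_mul_le_mul_right h1 (by omega)
    refine hfin ((Nat.pow_le_pow_iff_right one_lt_two).1 ?_)
    calc 2 ^ (k + 1) = 2 ^ k * 2 := pow_succ 2 k
      _ ≤ Y ^ k * 2 := Nat.mul_le_mul_right _ (Nat.pow_le_pow_left hxy k)
      _ ≤ 2 * c.natAbs * 2 := Nat.mul_le_mul_right _ h2
      _ ≤ 2 ^ u := by omega

theorem finite_binomial_fibre {a b n : ℕ} (ha : 0 < a) (hb : 0 < b) (hn : 3 ≤ n) {c : ℤ}
    (hc : c ≠ 0) :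
    {p : ℕ × ℕ | 0 < p.1 ∧ 0 < p.2 ∧ (a : ℤ) * p.1 ^ n - (b : ℤ) * p.2 ^ n = c}.Finite := by
  have hn0 : n ≠ 0 := by omega
  set α : ℝ := ((b : ℝ) / a) ^ ((n : ℝ)⁻¹)
  have hba : (0 : ℝ) < (b : ℝ) / a := by positivity
  have hα0 : 0 < α := Real.rpow_pos_of_pos hba _
  have hαn : α ^ n = (b : ℝ) / a := Real.rpow_inv_natCast_pow hba.le hn0
  have halg : IsAlgebraic ℚ α := by
    refine IsAlgebraic.of_pow (n := n) (by omega) ?_
    rw [hαn, show (b : ℝ) / a = algebraMap ℚ ℝ ((b : ℚ) / a) by simp]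
    exact isAlgebraic_algebraMap _
  obtain ⟨κ, C₀, hκ, hC₀, hlow⟩ : ∃ κ C₀ : ℝ, κ < n ∧ 0 < C₀ ∧ ∀ x y : ℕ, 0 < y →
      α ≠ (x : ℝ) / y → C₀ * (y : ℝ) ^ (-κ) ≤ |α - (x : ℝ) / y| := by
    by_cases hirr : Irrational α
    · set D := (minpoly ℚ α).natDegree
      have hD : D ≤ n := by
        let P : Polynomial ℚ := Polynomial.X ^ n - Polynomial.C ((b : ℚ) / a)
        have hP : P.Monic := Polynomial.monic_X_pow_sub_C _ hn0
        refine (Polynomial.natDegree_le_of_dvd (minpoly.dvd ℚ α ?_) hP.ne_zero).trans_eq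
          Polynomial.natDegree_X_pow_sub_C
        simp [P, hαn]
      have hD' : (D : ℝ) / 2 + 1 < n := by
        have h1 : (D : ℝ) ≤ n := by exact_mod_cast hD
        have h2 : (3 : ℝ) ≤ n := by exact_mod_cast hn
        linarith
      obtain ⟨κ, hκ1, hκ2⟩ := exists_between hD'
      obtain ⟨C₀, hC₀, hC⟩ := FA.Summary.thue_lower_bound halg hirr hκ1
      refine ⟨κ, C₀, hκ2, hC₀, fun x y hy _ => ?_⟩
      have h1 := hC ((x : ℚ) / y)
      push_cast at h1
      refine le_trans (mul_le_mul_of_nonneg_left ?_ hC₀.le) h1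
      have hden : (((x : ℚ) / y).den : ℤ) ∣ (y : ℤ) := by
        have := Rat.den_dvd (x : ℤ) (y : ℤ)
        rwa [Rat.divInt_eq_div, Int.cast_natCast, Int.cast_natCast] at this
      refine Real.rpow_le_rpow_of_nonpos (Nat.cast_pos.2 (Rat.den_pos _)) ?_ ?_
      · exact_mod_cast Nat.le_of_dvd hy (Int.natCast_dvd_natCast.1 hden)
      · have : (0 : ℝ) ≤ D := Nat.cast_nonneg _
        linarith
    · rw [Irrational, not_not] at hirr
      obtain ⟨r, hr⟩ := hirr
      refine ⟨1, 1 / (r.den : ℝ), by exact_mod_cast (by omega : 1 < n), by positivity,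
        fun x y hy hne => ?_⟩
      rw [← hr, Rat.cast_def] at hne ⊢
      rw [div_sub_div _ _ (Nat.cast_ne_zero.2 r.den_ne_zero) (Nat.cast_ne_zero.2 hy.ne'),
        abs_div, abs_of_pos (show (0 : ℝ) < r.den * y by positivity), Real.rpow_neg_one,
        ← one_div, div_mul_div_comm, one_mul]
      refine div_le_div_of_nonneg_right ?_ (by positivity)
      have h1 : r.num * (y : ℤ) - r.den * (x : ℤ) ≠ 0 := fun h0 => hne (by
        rw [div_eq_div_iff (Nat.cast_ne_zero.2 r.den_ne_zero) (Nat.cast_ne_zero.2 hy.ne'),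
          mul_comm (x : ℝ)]
        exact_mod_cast sub_eq_zero.1 h0)
      exact_mod_cast Int.one_le_abs h1
  set C : ℝ := |(c : ℝ)| / (a * α ^ (n - 1))
  obtain ⟨Z, hZ⟩ : ∃ Z : ℕ, ∀ t : ℕ, Z ≤ t → C / C₀ < (t : ℝ) ^ ((n : ℝ) - κ) := by
    obtain ⟨Z, hZ⟩ := Filter.eventually_atTop.1
      (((tendsto_rpow_atTop (by linarith : 0 < n - κ)).comp
      tendsto_natCast_atTop_atTop).eventually (Filter.eventually_gt_atTop (C / C₀)))
    exact ⟨Z, hZ⟩
  refine Set.Finite.subset ((Set.finite_Iio (c.natAbs + b * Z ^ n + 1)).prod (Set.finite_Iio Z))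
    fun ⟨x, y⟩ ⟨hx, hy, he⟩ => ?_
  simp only at hx hy he
  have hyZ : y < Z := by
    by_contra hge
    push Not at hge
    have hy' : (0 : ℝ) < y := Nat.cast_pos.2 hy
    have heR : (a : ℝ) * ((x : ℝ) ^ n - (α * y) ^ n) = c := by
      rw [mul_pow, hαn, ← he]
      push_cast
      field_simp
    have hne : α ≠ (x : ℝ) / y := fun h => hc (by
      rw [h, div_mul_cancel₀ _ hy'.ne', sub_self, mul_zero] at heR
      exact_mod_cast heR.symm)
    have h1 := hlow x y hy hne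
    have hgeom : |(x : ℝ) - α * y| * (α * y) ^ (n - 1) ≤ |(x : ℝ) ^ n - (α * y) ^ n| := by
      rw [← geom_sum₂_mul, abs_mul, mul_comm]
      refine mul_le_mul_of_nonneg_right (le_trans ?_ (le_abs_self _)) (abs_nonneg _)
      exact le_trans (by simp) (Finset.single_le_sum (fun i _ => by positivity)
        (Finset.mem_range.2 (show 0 < n by omega)))
    have h2 : |α - (x : ℝ) / y| * (y : ℝ) ^ n ≤ C := by
      rw [le_div_iff₀ (by positivity), ← heR, abs_mul, Nat.abs_cast]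
      calc |α - (x : ℝ) / y| * (y : ℝ) ^ n * (a * α ^ (n - 1))
          = a * (|(x : ℝ) - α * y| * (α * y) ^ (n - 1)) := by
            rw [show |(x : ℝ) - α * y| = |α - (x : ℝ) / y| * y by
              rw [← abs_of_pos hy', ← abs_mul, abs_of_pos hy', sub_mul, div_mul_cancel₀ _ hy'.ne',
                abs_sub_comm], mul_pow]
            conv_lhs => rw [show n = (n - 1) + 1 by omega, pow_succ, Nat.add_sub_cancel]
            ring
        _ ≤ a * |(x : ℝ) ^ n - (α * y) ^ n| := by gcongr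
    have h3 := hZ y hge
    rw [div_lt_iff₀' hC₀, Real.rpow_sub hy', Real.rpow_natCast, ← mul_div_assoc,
      lt_div_iff₀ (Real.rpow_pos_of_pos hy' κ)] at h3
    have h4 : C₀ * (y : ℝ) ^ n ≤ C * (y : ℝ) ^ κ := by
      calc C₀ * (y : ℝ) ^ n = C₀ * (y : ℝ) ^ (-κ) * (y : ℝ) ^ n * (y : ℝ) ^ κ := by
            rw [Real.rpow_neg hy'.le]
            field_simp
        _ ≤ |α - (x : ℝ) / y| * (y : ℝ) ^ n * (y : ℝ) ^ κ := by gcongr
        _ ≤ C * (y : ℝ) ^ κ := by gcongr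
    linarith
  refine ⟨?_, hyZ⟩
  have h1 : a * x ^ n ≤ c.natAbs + b * y ^ n := by
    zify
    rw [← he]
    linarith [le_abs_self ((a : ℤ) * x ^ n - b * y ^ n)]
  have h2 : x ≤ a * x ^ n := (Nat.le_self_pow hn0 x).trans (Nat.le_mul_of_pos_left _ ha)
  have h3 : b * y ^ n ≤ b * Z ^ n := Nat.mul_le_mul_left _ (Nat.pow_le_pow_left hyZ.le n)
  exact Set.mem_Iio.2 (by omega)

end FA.TwoLogarithms

end
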